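/-
S59lib / MazurW / Iface  (helper8)  — Project I, block `LowerOneBlock`, part B0 (MAZUR'S PRINCIPLE) FOR AN
ARBITRARY INTEGRAL MODEL `W`: THE INTERFACE AND THE ASSEMBLY.

`W/ℤ` an integral model (`Δ ≠ 0`), `p` odd, `W[p]` irreducible, `q ≠ p` a prime with `q ∣ N`, `ρ̄ = W[p]`
residually modular of level `N` and unramified at `q`:

      `q ≢ 1 (p)`  or  a decomposition group over `q` acts through a non-scalar
          ⟹  `ρ̄` is residually modular of level `N / q`.

This is `S43lib.B0.mazur_of_stmts` with the Frey module replaced by `W[p]` (helper1's `Q1WStmt`,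
`NonEisWStmt`) over the SAME geometric package `S43lib.B0.TamePackage N q p A`; `p ∣ N` is allowed
(the package never used `p ∤ N`); the prime `q` may be a GOOD prime of `W` (the level `N` need not be a
conductor level), in which case the congruence at `ℓ = q` is supplied by helper1's
`AuxPrime.exists_congr_at_good`.

* `DecompScalarAtW W p q`    every decomposition group above `q` acts on `W[p]` through scalars;
* `MazurWAt p q`             Mazur's principle for the pair `(p, q)` in the frozen vocabulary;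
* `decompFrobW`, `detFrobW`  the arithmetic side inputs (helper4's `S43lib/B3/Arith/**` for `W`);
* **`resMod_div_of_tamePackage`** : the assembly.
-/
import Mathlib
import Fermat.Agent.S59lib.Iface
import Fermat.Agent.S59lib.LevelQ2.Iface
import Fermat.Agent.S59lib.AuxPrime.CongrAt
import Fermat.Agent.S43lib.B0.Iface
import Fermat.Agent.S43lib.B3.Arith.Decomp
import Fermat.Agent.S43lib.B3.Arith.Det

set_option autoImplicit false
set_option linter.unusedSectionVars false
set_option linter.style.haveILetI false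

noncomputable section

namespace Fermat.Agent.S59lib.MazurW

open ModularCurve Matrix Fermat.Agent.S19lib Fermat.Agent.S33lib Fermat.Agent.S44lib
open Fermat.Agent.S59lib.LevelQ2 Fermat.Agent.S43lib.B0 Fermat.Agent.S44lib.Q1
open WeierstrassCurve WeierstrassCurve.Affine WeierstrassCurve.Affine.Point

local notation "Qb" => AlgebraicClosure ℚ
local notation "GQ" => (AlgebraicClosure ℚ ≃ₐ[ℚ] AlgebraicClosure ℚ)
local notation "Zbar" => integralClosure ℤ ℂ

/-! ### vocabulary -/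

/-- every decomposition group above `q` acts on `W[p]` through scalars -/
def DecompScalarAtW (W : WeierstrassCurve ℤ) (p q : ℕ) : Prop :=
  ∀ A : ValuationSubring Qb, A.LiesOverPrime q → ∀ σ ∈ A.decompositionSubgroup ℚ, ∃ c : ℤ,
    ∀ x : WTors W p, σ • x = c • x

/-- **Mazur's principle for the pair `(p, q)`**, frozen vocabulary, at the levels satisfying `L`. -/
def MazurWAt (p q : ℕ) (L : ℕ → Prop) : Prop :=
  ∀ (W : WeierstrassCurve ℤ), W.Δ ≠ 0 → W.ModRepIsIrreducible p → ∀ N : ℕ, 0 < N → L N →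
    q ∣ N → ¬ q ^ 2 ∣ N → W.IsResiduallyModularOfLevel p N → ModPUnramifiedAt W p q →
    (¬ q ≡ 1 [MOD p] ∨ ¬ DecompScalarAtW W p q) → W.IsResiduallyModularOfLevel p (N / q)

/-! ### the arithmetic side inputs for `W` -/

/-- **`DecompFrob` for `W`**: if the inertia group at `A ∣ q` acts trivially on `W[p]`, every element of the
decomposition group at `A` acts on `W[p]` as a power of a Frobenius element at `A`. -/
theorem decompFrobW (W : WeierstrassCurve ℤ) (hΔ : W.Δ ≠ 0) (p : ℕ) [hp : Fact p.Prime] (q : ℕ)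
    (A : ValuationSubring Qb) (hq : q.Prime) (hA : A.LiesOverPrime q)
    (hI : ∀ σ ∈ IA A, ∀ x : WTors W p, σ • x = x) :
    ∀ σ ∈ A.decompositionSubgroup ℚ, ∃ (φ : GQ) (j : ℕ), A.IsFrobeniusAt φ q ∧
      ∀ x : WTors W p, σ • x = φ ^ j • x := by
  intro σ hσ
  haveI : Fact q.Prime := ⟨hq⟩
  obtain ⟨F, hFfd, hF⟩ := rhoE_finiteLevel W hΔ p
  set d : WTors W p ≃+ (Fin 2 → ZMod p) := coordE W hΔ p with hd
  have hdσ : ∀ (σ : GQ) (x : WTors W p), d (σ • x) = rhoE W hΔ p σ *ᵥ d x :=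
    fun σ x => coordE_smul W hΔ p σ x
  set f : GQ →* Equiv.Perm (WTors W p) := MulAction.toPermHom GQ (WTors W p) with hf
  have hfF : ∀ s ∈ F.fixingSubgroup, f s = 1 := by
    intro s hs
    have h1 := hF s ((IntermediateField.mem_fixingSubgroup_iff F s).1 hs)
    apply Equiv.ext
    intro x
    apply d.injective
    show d (s • x) = d x
    rw [hdσ, h1, Matrix.one_mulVec]
  have hfI : ∀ s ∈ A.inertiaSubgroupIn ℚ, f s = 1 := by
    intro s hs
    apply Equiv.ext
    intro x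
    exact hI s hs x
  obtain ⟨φ, j, hφ, hj⟩ :=
    Fermat.Agent.S43lib.B3.exists_frob_pow_of_mem_decomposition_place f F hfF A hA hfI hσ
  refine ⟨φ, j, hφ, fun x => ?_⟩
  have h2 := Equiv.congr_fun hj x
  rw [← map_pow] at h2
  exact h2

/-- **`DetFrob` for `W`**: a Frobenius element at `q ≠ p` acting on `W[p]` through the scalar `c` has
`c² ≡ q (mod p)`. -/
theorem detFrobW (W : WeierstrassCurve ℤ) (hΔ : W.Δ ≠ 0) (p : ℕ) [hp : Fact p.Prime] (q : ℕ)
    (A : ValuationSubring Qb) (hq : q.Prime) (hqp : q ≠ p) (hA : A.LiesOverPrime q) (φ : GQ)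
    (hφ : A.IsFrobeniusAt φ q) (c : ℤ) (hc : ∀ x : WTors W p, φ • x = c • x) :
    (p : ℤ) ∣ c ^ 2 - q := by
  set d : WTors W p ≃+ (Fin 2 → ZMod p) := coordE W hΔ p with hd
  have hdσ : ∀ (σ : GQ) (x : WTors W p), d (σ • x) = rhoE W hΔ p σ *ᵥ d x :=
    fun σ x => coordE_smul W hΔ p σ x
  have hcop : Nat.Coprime p q := (Nat.coprime_primes hp.out hq).2 (Ne.symm hqp)
  have hdet : (rhoE W hΔ p φ).det = (q : ZMod p) :=
    Fermat.Agent.S43lib.B3.det_rhoE_eq_of_rootAction W hΔ p φ q fun μ hμ =>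
      Fermat.Agent.S43lib.B3.frobenius_apply_rootOfUnity hA hp.out.pos hcop hμ hφ
  have hscal : rhoE W hΔ p φ = (c : ZMod p) • (1 : Matrix (Fin 2) (Fin 2) (ZMod p)) := by
    apply Matrix.mulVec_injective
    funext v
    obtain ⟨x, rfl⟩ := d.surjective v
    rw [← hdσ, hc, map_zsmul, Matrix.smul_mulVec, Matrix.one_mulVec]
    exact (Int.cast_smul_eq_zsmul (ZMod p) c (d x)).symm
  rw [hscal, Matrix.det_smul, Matrix.det_one, mul_one, Fintype.card_fin] at hdet
  have h7 : (((c ^ 2 - (q : ℤ) : ℤ)) : ZMod p) = 0 := by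
    push_cast
    rw [hdet, sub_self]
  exact (ZMod.intCast_zmod_eq_zero_iff_dvd _ p).1 h7

/-- an additive endomorphism of `W[p]` commuting with `G_ℚ` and of square one is `± 1` if `W[p]` is
irreducible. -/
theorem eq_or_eq_neg_of_involutionW (W : WeierstrassCurve ℤ) (p : ℕ) [hp : Fact p.Prime]
    (hirr : W.ModRepIsIrreducible p)
    (u : WTors W p →+ WTors W p) (hu : ∀ (σ : GQ) (x : WTors W p), u (σ • x) = σ • u x)
    (huu : ∀ x, u (u x) = x) : (∀ x, u x = x) ∨ (∀ x, u x = -x) := by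
  let Np : Submodule (ZMod p) (WTors W p) :=
    LinearMap.ker ((u - AddMonoidHom.id (WTors W p) : WTors W p →+ WTors W p).toZModLinearMap p)
  have hmem : ∀ x : WTors W p, x ∈ Np ↔ u x = x := by
    intro x
    show (u - AddMonoidHom.id (WTors W p) : WTors W p →+ WTors W p) x = 0 ↔ _
    rw [AddMonoidHom.sub_apply, AddMonoidHom.id_apply, sub_eq_zero]
  have hst : IsGaloisStable (K := Qb) ℚ Np := by
    intro σ x hx
    rw [hmem] at hx ⊢
    rw [hu, hx]
  rcases hirr.2 Np hst with h | h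
  · right
    intro x
    have h1 : x + u x ∈ Np := by
      rw [hmem, map_add, huu, add_comm]
    rw [h, Submodule.mem_bot] at h1
    exact (eq_neg_of_add_eq_zero_right h1)
  · left
    intro x
    exact (hmem x).1 (h ▸ Submodule.mem_top)

/-! ### the assembly -/

/-- **MAZUR'S PRINCIPLE FOR `W` OVER A TAME PACKAGE.** -/
theorem resMod_div_of_tamePackage (hQ1 : Q1WStmt) (hne : NonEisWStmt) {p : ℕ} (hp : p.Prime)
    (hp2 : p ≠ 2) (W : WeierstrassCurve ℤ) (hΔ : W.Δ ≠ 0) (hirr : W.ModRepIsIrreducible p)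
    {N : ℕ} [NeZero N] {q : ℕ} (hq : q.Prime) (hqp : q ≠ p) (hqN : q ∣ N)
    (hunr : ModPUnramifiedAt W p q)
    (hdisj : ¬ q ≡ 1 [MOD p] ∨ ¬ DecompScalarAtW W p q)
    (hG : ∀ A : ValuationSubring Qb, A.LiesOverPrime q → Nonempty (TamePackage N q p A))
    (hres : W.IsResiduallyModularOfLevel p N) : W.IsResiduallyModularOfLevel p (N / q) := by
  classical
  haveI : Fact p.Prime := ⟨hp⟩
  obtain ⟨f, 𝔪, hf, h𝔪, hp𝔪, hcong⟩ := hres
  have hcong' : CongruentTo f 𝔪 W.apOfModel (IsTestPrime W N p) :=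
    fun ℓ hℓ => hcong ℓ hℓ.1 hℓ.2.1 hℓ.2.2.1 hℓ.2.2.2
  obtain ⟨V, e, hVt, he, hVeig⟩ := hQ1 p hp hp2 W hΔ hirr N f 𝔪 hf h𝔪 hp𝔪 hcong'
  -- the place: one at which a decomposition group acts through a non-scalar, if there is one
  obtain ⟨A, hA, hAdisj⟩ : ∃ A : ValuationSubring Qb, A.LiesOverPrime q ∧
      (¬ q ≡ 1 [MOD p] ∨ ∃ σ ∈ A.decompositionSubgroup ℚ, ∀ c : ℤ,
        ¬ ∀ x : WTors W p, σ • x = c • x) := by
    rcases hdisj with h | h
    · obtain ⟨A, hA⟩ := Fermat.Agent.S13lib.exists_liesOverPrime hq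
      exact ⟨A, hA, Or.inl h⟩
    · unfold DecompScalarAtW at h
      push Not at h
      obtain ⟨A, hA, σ, hσ, hns⟩ := h
      exact ⟨A, hA, Or.inr ⟨σ, hσ, fun c hc => by
        obtain ⟨x, hx⟩ := hns c
        exact hx (hc x)⟩⟩
  obtain ⟨G⟩ := hG A hA
  -- transport of the Galois structure to `V`
  have hsmulV : ∀ (σ : GQ) (x : JZero N), x ∈ V → σ • x ∈ V := by
    intro σ x hx
    have := he σ (e.symm ⟨x, hx⟩)
    rw [AddEquiv.apply_symm_apply] at this
    rw [← this]
    exact (e _).2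
  have hItriv : ∀ τ ∈ IA A, ∀ x : WTors W p, τ • x = x := fun τ hτ x => hunr A hA τ hτ x
  have hIfix : ∀ σ ∈ IA A, ∀ x ∈ V, σ • x = x := by
    intro σ hσ x hx
    obtain ⟨y, rfl⟩ : ∃ y, ((e y : V) : JZero N) = x := ⟨e.symm ⟨x, hx⟩, by simp⟩
    have hy : σ • y = y := hItriv σ hσ y
    rw [← he σ y, hy]
  have hnonE := hne p hp hp2 W hΔ hirr N (Nat.pos_of_ne_zero (NeZero.ne N))
  have hS : ∀ ℓ, IsTestPrime W N p ℓ → ℓ.Prime ∧ ¬ ℓ ∣ N ∧ ℓ ≠ p :=
    fun ℓ hℓ => ⟨hℓ.1, hℓ.2.2.1, hℓ.2.2.2⟩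
  have hresG : ∀ x ∈ V, G.res (G.Ψ x) = 0 ∧ ∀ (ℓ : ℕ) (hℓ : ℓ.Prime), IsTestPrime W N p ℓ →
      G.TΩ ⟨ℓ, hℓ⟩ (G.Ψ x) = (W.apOfModel ℓ) • G.Ψ x := fun x hx =>
    G.res_eq_zero hp (hVt hx) (fun σ hσ => hIfix σ hσ x hx) W.apOfModel (IsTestPrime W N p) hS
      (fun ℓ hℓ hSℓ => hVeig ℓ hℓ hSℓ x hx) hnonE
  by_cases hΨ : ∃ x ∈ V, G.Ψ x ≠ 0
  · -- the abelian part: an old form
    obtain ⟨x, hxV, hx0⟩ := hΨ
    obtain ⟨g, 𝔪', hg, h𝔪', hp𝔪', hcongg⟩ := G.old x (hVt hxV) hx0 (hresG x hxV).1 W.apOfModel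
      (IsTestPrime W N p) hS hnonE (hresG x hxV).2
    have hNq0 : N / q ≠ 0 := by
      obtain ⟨k, hk⟩ := hqN
      have hk0 : k ≠ 0 := by
        rintro rfl
        exact (NeZero.ne N) (by rw [hk, mul_zero])
      rw [hk, Nat.mul_div_cancel_left _ hq.pos]
      exact hk0
    haveI : NeZero (N / q) := ⟨hNq0⟩
    haveI := h𝔪'
    refine ⟨g, 𝔪', hg, h𝔪', hp𝔪', ?_⟩
    intro ℓ hℓ hgood hℓM hℓp
    by_cases hℓN : ℓ ∣ N
    · -- `ℓ ∣ N`, `ℓ ∤ N / q` ⟹ `ℓ = q`, a good prime of `W`: the congruence at one more prime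
      have hN : N = q * (N / q) := (Nat.mul_div_cancel' hqN).symm
      have hℓq : ℓ = q := by
        rw [hN] at hℓN
        rcases (Nat.Prime.dvd_mul hℓ).1 hℓN with h | h
        · exact (Nat.prime_dvd_prime_iff_eq hℓ hq).1 h
        · exact absurd h hℓM
      subst hℓq
      set S₀ : Finset ℕ := insert p (N.primeFactors ∪ W.Δ.natAbs.primeFactors) with hS₀
      refine Fermat.Agent.S59lib.AuxPrime.exists_congr_at_good W hΔ p g hg 𝔪' hp𝔪' S₀ ?_ hℓ hqp hℓM
        hgood
      intro r hr hrS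
      have hrp : r ≠ p := fun h => hrS (h ▸ Finset.mem_insert_self _ _)
      have hrN : ¬ r ∣ N := fun h => hrS (Finset.mem_insert_of_mem (Finset.mem_union_left _
        (Nat.mem_primeFactors.2 ⟨hr, h, NeZero.ne N⟩)))
      have hrgood : W.IsGoodPrimeFor r := by
        intro hd
        apply hrS
        refine Finset.mem_insert_of_mem (Finset.mem_union_right _ ?_)
        rw [Nat.mem_primeFactors]
        exact ⟨hr, Int.natCast_dvd.mp hd, Int.natAbs_ne_zero.mpr hΔ⟩
      exact hcongg r ⟨hr, hrgood, hrN, hrp⟩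
    · exact hcongg ℓ ⟨hℓ, hgood, hℓN, hℓp⟩
  · -- the toric part: every Frobenius element at `A` acts through a scalar `c` with `c² ≡ q² (p)`
    exfalso
    push Not at hΨ
    have hVK : ∀ x ∈ V, x ∈ G.K := fun x hx => (G.mem_K x (hVt hx)).2 (hΨ x hx)
    have hcop : IsCoprime (q : ℤ) (p : ℤ) := by
      have : Nat.Coprime q p := (Nat.coprime_primes hq hp).2 hqp
      exact_mod_cast Nat.isCoprime_iff_coprime.2 this
    obtain ⟨φ₀, hφ₀⟩ : ∃ φ : GQ, A.IsFrobeniusAt φ q := by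
      obtain ⟨B, σ, hB, hσ⟩ := Fermat.Agent.Helper5.exists_isFrobeniusAt q hq
      obtain ⟨g, hg⟩ := Fermat.Agent.S56lib.TWSel.exists_smul_eq_of_liesOverPrime hq hB hA
      refine ⟨g * σ * g⁻¹, ?_⟩
      rw [hg]
      exact Fermat.Agent.S56lib.TWSel.isFrobeniusAt_conj hσ
    -- `w` preserves `V`
    have hwT : ∀ x ∈ tors N (p : ℤ), G.w x ∈ tors N (p : ℤ) := by
      intro x hx
      have hx' : (p : ℤ) • x = 0 := (Submodule.mem_torsionBy_iff _ _).1 hx
      show G.w x ∈ Submodule.torsionBy ℤ (JZero N) (p : ℤ)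
      rw [Submodule.mem_torsionBy_iff, ← map_zsmul, hx', _root_.map_zero]
    have hwV : ∀ x ∈ V, G.w x ∈ V := by
      intro x hx
      have h1 : φ₀ • x = -((q : ℤ) • G.w x) := G.frobK φ₀ hφ₀ x (hVK x hx)
      have h2 : (q : ℤ) • G.w x ∈ V := by
        have : (q : ℤ) • G.w x = -(φ₀ • x) := by rw [h1, neg_neg]
        rw [this]
        exact V.neg_mem (hsmulV φ₀ x hx)
      obtain ⟨u, v, huv⟩ := hcop
      have h3 : (p : ℤ) • G.w x = 0 := (Submodule.mem_torsionBy_iff _ _).1 (hwT x (hVt hx))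
      have : G.w x = u • ((q : ℤ) • G.w x) := by
        have h4 : G.w x = (u * (q : ℤ) + v * (p : ℤ)) • G.w x := by rw [huv, one_smul]
        rw [add_zsmul, mul_zsmul, mul_zsmul, h3, zsmul_zero, add_zero] at h4
        exact h4
      rw [this]
      exact V.zsmul_mem h2 u
    -- the involution of `W[p]`
    let wV : V →+ V :=
      { toFun := fun x => ⟨G.w (x : JZero N), hwV x x.2⟩
        map_zero' := Subtype.ext (_root_.map_zero G.w)
        map_add' := fun x y => Subtype.ext (map_add G.w (x : JZero N) (y : JZero N)) }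
    let u : WTors W p →+ WTors W p :=
      (e.symm.toAddMonoidHom.comp wV).comp e.toAddMonoidHom
    have hu_apply : ∀ y : WTors W p, ((e (u y) : V) : JZero N) = G.w ((e y : V) : JZero N) := by
      intro y
      show ((e (e.symm (wV (e y))) : V) : JZero N) = _
      rw [AddEquiv.apply_symm_apply]
      rfl
    have hinj : ∀ y y' : WTors W p, ((e y : V) : JZero N) = ((e y' : V) : JZero N) → y = y' :=
      fun y y' h => e.injective (Subtype.ext h)
    have he_zsmul : ∀ (c : ℤ) (y : WTors W p),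
        ((e (c • y) : V) : JZero N) = c • ((e y : V) : JZero N) := by
      intro c y
      have h : e (c • y) = c • e y := map_zsmul e c y
      rw [h]
      rfl
    have hu_gal : ∀ (σ : GQ) (y : WTors W p), u (σ • y) = σ • u y := by
      intro σ y
      apply hinj
      rw [hu_apply, he, G.w_galois, he, hu_apply]
    have hu_inv : ∀ y, u (u y) = y := by
      intro y
      apply hinj
      rw [hu_apply, hu_apply, G.w_invol]
    -- every Frobenius element at `A` acts through a scalar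
    have hscalar : ∀ φ : GQ, A.IsFrobeniusAt φ q → ∃ c : ℤ, (∀ y : WTors W p, φ • y = c • y) ∧
        (p : ℤ) ∣ c ^ 2 - (q : ℤ) ^ 2 := by
      intro φ hφ
      rcases eq_or_eq_neg_of_involutionW W p hirr u hu_gal hu_inv with hε | hε
      · refine ⟨-(q : ℤ), fun y => ?_, by simp⟩
        apply hinj
        rw [he, G.frobK φ hφ _ (hVK _ (e y).2), ← hu_apply, hε, he_zsmul, neg_zsmul]
      · refine ⟨(q : ℤ), fun y => ?_, by simp⟩
        apply hinj
        rw [he, G.frobK φ hφ _ (hVK _ (e y).2), ← hu_apply, hε, map_neg, AddSubgroup.coe_neg,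
          zsmul_neg, neg_neg, he_zsmul]
    rcases hAdisj with hr1 | ⟨σ, hσ, hns⟩
    · -- `q ≢ 1 (p)`: the determinant
      obtain ⟨c, hc, hc2⟩ := hscalar φ₀ hφ₀
      have h3 := detFrobW W hΔ p q A hq hqp hA φ₀ hφ₀ c hc
      have h4 : (p : ℤ) ∣ (q : ℤ) * ((q : ℤ) - 1) := by
        have : (q : ℤ) * ((q : ℤ) - 1) = (c ^ 2 - (q : ℤ)) - (c ^ 2 - (q : ℤ) ^ 2) := by ring
        rw [this]
        exact dvd_sub h3 hc2
      have hpp : Prime (p : ℤ) := Nat.prime_iff_prime_int.mp hp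
      rcases hpp.dvd_or_dvd h4 with h | h
      · have : p ∣ q := by exact_mod_cast h
        exact hqp ((Nat.prime_dvd_prime_iff_eq hp hq).1 this).symm
      · apply hr1
        have h6 : (1 : ℤ) ≡ (q : ℤ) [ZMOD (p : ℤ)] := (Int.modEq_iff_dvd).2 (by simpa using h)
        exact (Int.natCast_modEq_iff.1 (by simpa using h6.symm))
    · -- a non-scalar element of the decomposition group
      obtain ⟨φ, j, hφ, hσφ⟩ := decompFrobW W hΔ p q A hq hA hItriv σ hσ
      obtain ⟨c, hc, -⟩ := hscalar φ hφ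
      refine hns (c ^ j) fun x => ?_
      rw [hσφ x]
      clear hσφ
      induction j generalizing x with
      | zero => simp
      | succ j ih =>
        rw [pow_succ, mul_smul, hc, pow_succ, mul_smul]
        exact ih (c • x)

end Fermat.Agent.S59lib.MazurW

end
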