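/-
S59lib / MazurW / CoreEF  (helper8)  — Project I, block `LowerOneBlock`, part B0: THE TAME PACKAGE AT THE
ELLIPTIC-FREE LEVELS, FOR EVERY PRIME TORSION ORDER `p ≠ q` (in particular `p = 3`).

`S43lib.B0.tameCoreMod` (level `M q`, `q ≥ 5`, ANY `M`) needs `p ∤ 12`: its tame `(M′)` pulls the class back to the
elliptic-free level `36 M q` and descends, dividing by `12`; and its Eisenstein subgroup is spanned by the
vectors `c ↦ ord_{x c} H₂ mod p`.  At an ELLIPTIC-FREE level (`ν₂ M = ν₃ M = 0`: e.g. `4 ∣ M`, or a prime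
`r₀ ≡ 11 (12)` dividing `M`) nothing of this is needed: `ord H₂ = 12` at all nodes,
`B0.kapOrd_const_tame` gives CONSTANT node orders for every prime torsion order, and the constant vectors are
`(ℓ + 1)`-eigenvectors of the node matrices (helper6's `P3.Geom3.nodeHomPair_eq_smul_of_mem_constSub`).
No pull-back, no descent, no division by `12`, no `π^*`-injectivity.

* `resMap_psi_mem_constSub_tame` : the tame `(M′)` in `constSub` form;
* `tameCoreOfCtxC`                : `TameCore` from a nodal context with `ord H₂ = 12`, `Eis = constSub`;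
* `tameCoreEF`                    : the elliptic-free instance (`q ≥ 5`);
* `tameOldEF`                     : the field `old` (copy of `B0.Lift.tameOldStmt_of_torsEigen`, whose `5 ≤ p` was
                                    never used);
* **`tamePackage_EF`**            : `Nonempty (TamePackage N q p A)` at every level `N`, `q ∥ N`, `q ≥ 5`,
                                    `ν₂ (N / q) = ν₃ (N / q) = 0`, every prime `p ≠ q`.
-/
import Fermat.Agent.S43lib.B0.Pkg.TameGeom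
import Fermat.Agent.S59lib.P3.Geom3.Hecke

set_option autoImplicit false
set_option linter.unusedSectionVars false
set_option linter.style.haveILetI false

noncomputable section

namespace Fermat.Agent.S59lib.MazurW

open AlgebraicCurve ModularCurve Fermat.Agent.S18lib Fermat.Agent.S37lib
open Fermat.Agent.LSb Fermat.Agent.LSb.Unit Fermat.Agent.S19lib
open Fermat.Agent.S44lib Fermat.Agent.S44lib.Kap Fermat.Agent.S44lib.Q4
open Fermat.Agent.S43lib.B0 Fermat.Agent.S59lib.P3.Geom3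

local notation "Qb" => AlgebraicClosure ℚ
local notation "GQ" => (AlgebraicClosure ℚ ≃ₐ[ℚ] AlgebraicClosure ℚ)
local notation "Zbar" => integralClosure ℤ ℂ

variable {M q : ℕ} [NeZero M] [NeZero q] [hq : Fact q.Prime] {A : ValuationSubring Qb}

local notation "kA" => IsLocalRing.ResidueField A

variable (hqM : ¬ q ∣ M) (hA : A.LiesOverPrime q) (p : ℕ)

/-- **THE TAME `(M′)` AT THE ELLIPTIC-FREE LEVELS, constant form**: for `A ∣ q`, `q ≥ 5`, `q ∤ M`,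
`ν₂ M = ν₃ M = 0`, a prime `m` and an inertia-fixed `x ∈ J₀(M q)[m]`, the residue vector of `Ψ x` is constant
on each component. -/
theorem resMap_psi_mem_constSub_tame (h5 : 5 ≤ q) (hν2 : nuTwo M = 0) (hν3 : nuThree M = 0)
    {m : ℕ} [hm : Fact m.Prime]
    {x : JZero (M * q)} (hx : x ∈ tors (M * q) (m : ℤ)) (hfix : ∀ σ ∈ IA A, σ • x = x) :
    resMap (modNod hqM hA) m (psi (modNod hqM hA) m x) ∈ constSub (modNod hqM hA).s m := by
  obtain ⟨h1, h2⟩ := kapOrd_const_tame hqM hA h5 hν2 hν3 hm.out hx hfix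
  obtain ⟨t₁, ht₁⟩ := Fermat.Agent.S44lib.Lvl.exists_const_of_forall_eq _ h1
  obtain ⟨t₂, ht₂⟩ := Fermat.Agent.S44lib.Lvl.exists_const_of_forall_eq _ h2
  haveI : NeZero m := ⟨hm.out.ne_zero⟩
  have hcast : ∀ a : ZMod m, (((a.val : ℕ) : ℤ) : ZMod m) = a := fun a => by
    rw [Int.cast_natCast, ZMod.natCast_zmod_val]
  haveI := modHpdK hqM hA
  refine mem_constSub.2 ⟨⟨((t₁.val : ℕ) : ℤ), fun c => ?_⟩, ⟨((t₂.val : ℕ) : ℤ), fun c => ?_⟩⟩
  · rw [hcast]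
    exact ht₁ c
  · rw [hcast]
    exact ht₂ c

section Ctx

variable (C : NodalCtx (modNod hqM hA) (modG M q) (modGk hqM hA) (modGk hqM hA))

/-- `eis` for the constant vectors -/
theorem tConst_hecke (hq2 : q ≠ 2)
    (hord12 : ∀ c : Fin (modS (modD1 hqM hA)),
      (modX₁ hA (modD1 hqM hA) c).ord (H₂ (modD1 hqM hA)) = 12 ∧
        (modX₂ (modD1 hqM hA) c).ord (H₂ (modD1 hqM hA)) = 12)
    (ℓ : Nat.Primes) (hℓN : ¬ (ℓ : ℕ) ∣ M * q)
    (ρ : TRes hqM hA p) (hρ : ρ ∈ constSub (modNod hqM hA).s p) :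
    tTR hqM hA p ℓ ρ = (((ℓ : ℕ) : ℤ) + 1) • ρ := by
  haveI : NeZero (ℓ : ℕ) := ⟨ℓ.2.ne_zero⟩
  haveI : Fact (ℓ : ℕ).Prime := ⟨ℓ.2⟩
  have hqMℓ : ¬ q ∣ M * (ℓ : ℕ) := S35lib.New.wqHecke_not_dvd M q hq.out hqM ℓ.2 hℓN
  have hℓM : ¬ (ℓ : ℕ) ∣ M := fun h => hℓN (h.trans (Dvd.intro q rfl))
  have hqℓ : q ≠ (ℓ : ℕ) := by
    intro h
    exact hℓN (h ▸ Dvd.intro_left M rfl)
  haveI : HasPrincipalDivisors kA (FRes A M) := modHpdK hqM hA
  haveI : HasPrincipalDivisors kA (FRes A (M * (ℓ : ℕ))) := modHpdK hqMℓ hA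
  rw [tTR_of_not_dvd hqM hA p ℓ hqMℓ]
  exact nodeHomPair_eq_smul_of_mem_constSub (modNod hqM hA) (modX₁_injective hA) modX₂_injective hA
    hq2 hqℓ hqMℓ hℓM (deg_eq_one_FRes hA hqMℓ) (modD1_isGaussOne hqM hA)
    (mem_modNodes_iff_modX₁ hA (modD1_isGaussOne hqM hA))
    (mem_modNodes_iff_modX₂ (modD1_isGaussOne hqM hA))
    (fun c => (hord12 c).1) (fun c => (hord12 c).2) p hρ

/-- **the tame core at level `M q` from a nodal context with `ord H₂ = 12` at the nodes**, `q ≠ 2`, `A ∣ q`,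
torsion exponent ANY prime `p ≠ q`, `Eis` = the constant vectors. -/
def tameCoreOfCtxC (hq2 : q ≠ 2) [Fact p.Prime] (hpq : p ≠ q)
    (hord12 : ∀ c : Fin (modS (modD1 hqM hA)),
      (modX₁ hA (modD1 hqM hA) c).ord (H₂ (modD1 hqM hA)) = 12 ∧
        (modX₂ (modD1 hqM hA) c).ord (H₂ (modD1 hqM hA)) = 12)
    (hmono : ∀ x ∈ tors (M * q) (p : ℤ), (∀ σ ∈ IA A, σ • x = x) →
      tRes hqM hA p (tPsi hqM hA p x) ∈ constSub (modNod hqM hA).s p) :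
    TameCore (M * q) q p A where
  Ω := TOm A M p
  R := TRes hqM hA p
  Ψ := tPsi hqM hA p
  res := tRes hqM hA p
  TΩ := tTΩ A M p
  TR := tTR hqM hA p
  Eis := constSub (modNod hqM hA).s p
  K := tK hqM hA p
  w := wqJHom hqM
  Ψ_add := tPsi_add hqM hA p
  Ψ_hecke := tPsi_hecke hqM hA p
  res_hecke := tRes_hecke hqM hA p C
  K_le := tK_le hqM hA p
  mem_K := mem_tK hqM hA p C (Fact.out : p.Prime).pos
  p_smul_R := fun ρ => m_smul_res p ρ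
  mono := hmono
  eis := fun ℓ hℓN _ ρ hρ => tConst_hecke hqM hA p hq2 hord12 ℓ hℓN ρ hρ
  w_galois := wqJHom_galois hqM
  w_invol := wqJHom_wqJHom hqM
  frobK := tFrobK hqM hA p C (fun h =>
    hpq ((Nat.prime_dvd_prime_iff_eq hq.out (Fact.out : p.Prime)).1 h).symm)

end Ctx

/-- **the tame core at an elliptic-free level `M q`**, `q ≥ 5`, `q ∤ M`, `ν₂ M = ν₃ M = 0`, `A ∣ q`, torsion
exponent ANY prime `p ≠ q`. -/
def tameCoreEF (h5 : 5 ≤ q) (hν2 : nuTwo M = 0) (hν3 : nuThree M = 0) [Fact p.Prime] (hpq : p ≠ q) :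
    TameCore (M * q) q p A :=
  tameCoreOfCtxC hqM hA p (modCtx hqM hA h5) (by omega) hpq
    (fun c => S36lib.Count.ord_H₂_modX_five_le h5 hqM hA hν2 hν3 (modD1_isGaussOne hqM hA) c)
    (fun _ hx hfix => resMap_psi_mem_constSub_tame hqM hA h5 hν2 hν3 hx hfix)

theorem tameCoreEF_Ψ (h5 : 5 ≤ q) (hν2 : nuTwo M = 0) (hν3 : nuThree M = 0) [Fact p.Prime]
    (hpq : p ≠ q) : (tameCoreEF hqM hA p h5 hν2 hν3 hpq).Ψ = tPsi hqM hA p := rfl

/-- **the field `old`** for the concrete model at level `M q`, `q ≥ 5`, every prime `p ≠ q` (the proof of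
`B0.Lift.tameOldStmt_of_torsEigen`, which never used `5 ≤ p`). -/
theorem tameOldEF (h5 : 5 ≤ q) [hp : Fact p.Prime] (hpq : p ≠ q) :
    ∀ x ∈ tors (M * q) (p : ℤ), tPsi hqM hA p x ≠ 0 → tRes hqM hA p (tPsi hqM hA p x) = 0 →
    ∀ (a : ℕ → ℤ) (S : ℕ → Prop),
    (∀ ℓ, S ℓ → ℓ.Prime ∧ ¬ ℓ ∣ M * q ∧ ℓ ≠ p) →
    (∃ ℓ, S ℓ ∧ ¬ (p : ℤ) ∣ a ℓ - (ℓ + 1)) →
    (∀ (ℓ : ℕ) (hℓ : ℓ.Prime), S ℓ →
      tTΩ A M p ⟨ℓ, hℓ⟩ (tPsi hqM hA p x) = (a ℓ) • tPsi hqM hA p x) →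
    ∃ (g : CuspForm (CongruenceSubgroup.Gamma0 (M * q / q)) 2) (𝔪 : Ideal Zbar),
      g.IsNormalizedEigenform ∧ 𝔪.IsMaximal ∧ (p : Zbar) ∈ 𝔪 ∧ CongruentTo g 𝔪 a S := by
  intro x hx hΨ hres a S hS _ heig
  have hp' : p.Prime := hp.out
  have hq' : q.Prime := hq.out
  have hqp : ¬ q ∣ p := fun h => hpq ((Nat.prime_dvd_prime_iff_eq hq' hp').1 h).symm
  have hx0 : (p : ℤ) • x = 0 := smul_eq_zero_of_mem_tors' hx
  haveI : HasPrincipalDivisors (IsLocalRing.ResidueField A) (FRes A M) := modHpdK hqM hA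
  -- the two components
  have hord₁ : ∀ Q : Place (IsLocalRing.ResidueField A) (FRes A M),
      Om.ordHom Q (tPsi hqM hA p x).1 = 0 := by
    intro Q
    by_cases hQ : ∃ c, Q = (modNod hqM hA).x₁ c
    · obtain ⟨c, rfl⟩ := hQ
      have := congrArg (fun r => r.1 c) hres
      exact this
    · push Not at hQ
      exact ordHom_psi_eq_zero_of_ne₁ (modNRed hqM hA h5) (modCtx hqM hA h5) hx0 hQ
  have hord₂ : ∀ Q : Place (IsLocalRing.ResidueField A) (FRes A M),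
      Om.ordHom Q (tPsi hqM hA p x).2 = 0 := by
    intro Q
    by_cases hQ : ∃ c, Q = (modNod hqM hA).x₂ c
    · obtain ⟨c, rfl⟩ := hQ
      have := congrArg (fun r => r.2 c) hres
      exact this
    · push Not at hQ
      exact ordHom_psi_eq_zero_of_ne₂ (modNRed hqM hA h5) (modCtx hqM hA h5) hx0 hQ
  have hS' : ∀ ℓ, S ℓ → ℓ.Prime ∧ ¬ ℓ ∣ M * q := fun ℓ h => ⟨(hS ℓ h).1, (hS ℓ h).2.1⟩
  have heig₁ : ∀ (ℓ : ℕ) [NeZero ℓ], S ℓ →
      Q4.heckeOm A M ℓ p (tPsi hqM hA p x).1 = a ℓ • (tPsi hqM hA p x).1 := by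
    intro ℓ _ hSℓ
    exact congrArg Prod.fst (heig ℓ (hS ℓ hSℓ).1 hSℓ)
  have heig₂ : ∀ (ℓ : ℕ) [NeZero ℓ], S ℓ →
      Q4.heckeOm A M ℓ p (tPsi hqM hA p x).2 = a ℓ • (tPsi hqM hA p x).2 := by
    intro ℓ _ hSℓ
    exact congrArg Prod.snd (heig ℓ (hS ℓ hSℓ).1 hSℓ)
  have hne : (tPsi hqM hA p x).1 ≠ 0 ∨ (tPsi hqM hA p x).2 ≠ 0 := by
    by_contra hcon
    rw [not_or, not_not, not_not] at hcon
    exact hΨ (Prod.ext hcon.1 hcon.2)
  have key : ∃ t : JZero M, t ≠ 0 ∧ (p : ℤ) • t = 0 ∧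
      ∀ (ℓ : ℕ) (hℓ : ℓ.Prime), S ℓ → heckeOperatorBar M ⟨ℓ, hℓ⟩ t = a ℓ • t := by
    rcases hne with h1 | h2
    · exact Lift.exists_eigen_torsion_of_om hqM hA p hp'.ne_zero hqp _ h1 hord₁ a S hS' heig₁
    · exact Lift.exists_eigen_torsion_of_om hqM hA p hp'.ne_zero hqp _ h2 hord₂ a S hS' heig₂
  obtain ⟨t, ht0, hpt, hte⟩ := key
  have hSM : ∀ ℓ, S ℓ → ℓ.Prime ∧ ¬ ℓ ∣ M := fun ℓ h =>
    ⟨(hS ℓ h).1, fun hd => (hS ℓ h).2.1 (hd.trans (Dvd.intro q rfl))⟩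
  obtain ⟨g, 𝔪, hg, h𝔪, hp𝔪, hcong⟩ := torsEigenStmt M p hp' t ht0 hpt a S hSM hte
  have hMq : M * q / q = M := Nat.mul_div_cancel M hq'.pos
  have fin : ∀ (M' : ℕ), M' = M → ∃ (g : CuspForm (CongruenceSubgroup.Gamma0 M') 2) (𝔪 : Ideal Zbar),
      g.IsNormalizedEigenform ∧ 𝔪.IsMaximal ∧ (p : Zbar) ∈ 𝔪 ∧ CongruentTo g 𝔪 a S := by
    rintro M' rfl
    exact ⟨g, 𝔪, hg, h𝔪, hp𝔪, hcong⟩
  exact fin _ hMq

/-- **THE TAME PACKAGE EXISTS AT EVERY ELLIPTIC-FREE LEVEL**: `q ∥ N`, `q ≥ 5`, `ν₂ (N / q) = ν₃ (N / q) = 0`,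
every prime `p ≠ q` (`p = 3` and `p ∣ N` allowed), every place `A ∣ q`. -/
theorem tamePackage_EF (N : ℕ) [NeZero N] (q p : ℕ) (hq : q.Prime) (h5 : 5 ≤ q) (hqN : q ∣ N)
    (hq2 : ¬ q ^ 2 ∣ N) (hν2 : nuTwo (N / q) = 0) (hν3 : nuThree (N / q) = 0) (hp : p.Prime)
    (hpq : p ≠ q) (A : ValuationSubring Qb) (hA : A.LiesOverPrime q) :
    Nonempty (TamePackage N q p A) := by
  obtain ⟨M, rfl⟩ := hqN
  have hM : M ≠ 0 := fun h => (NeZero.ne (q * M)) (by rw [h, mul_zero])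
  have hqM : ¬ q ∣ M := fun ⟨M', hM'⟩ => hq2 ⟨M', by rw [hM']; ring⟩
  rw [Nat.mul_div_cancel_left _ hq.pos] at hν2 hν3
  haveI : NeZero M := ⟨hM⟩
  haveI : NeZero q := ⟨hq.ne_zero⟩
  haveI : Fact q.Prime := ⟨hq⟩
  haveI : Fact p.Prime := ⟨hp⟩
  have key : ∀ (N' : ℕ) (_ : M * q = N') [NeZero N'], Nonempty (TamePackage N' q p A) := by
    intro N' h _
    subst h
    exact ⟨(tameCoreEF hqM hA p h5 hν2 hν3 hpq).toPackage (tameOldEF hqM hA p h5 hpq)⟩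
  exact key (q * M) (mul_comm M q)

end Fermat.Agent.S59lib.MazurW

end
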