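/-
S59lib / MazurW / Main  (helper8)  — Project I, block `LowerOneBlock`, part B0: **MAZUR'S PRINCIPLE FOR `W`**
at the primes `q ≥ 5`, for `p = 5` (every level) and `p = 3` (elliptic-free levels; every level with an
auxiliary prime `r₀ ≡ 11 (12)`, removed afterwards by helper1's `AuxPrime.removeAux`).

* `mazurW_EF`     : `p` odd, `q ≥ 5`, `q ≠ p`, levels `N` with `ν₂ (N / q) = ν₃ (N / q) = 0`;
* `mazurW_large`  : `p ≥ 5`, `q ≥ 5`, `q ≠ p`, every level (`S43lib.B0.tameGeomStmt`);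
* `HasAuxPrime W p` : arbitrarily large good primes `r₀ ≡ 11 (mod 12)` with
                      `a_{r₀}(W)² ≢ (r₀ + 1)² (mod p)` (Chebotarev; for `p = 3`: `3 ∤ a_{r₀}(W)`);
* `mazurW_of_aux` : `p` odd, `q ≥ 5`, `q ≠ p`, every level, for `W` with `HasAuxPrime W p`.
-/
import Fermat.Agent.S59lib.MazurW.Iface
import Fermat.Agent.S59lib.MazurW.CoreEF
import Fermat.Agent.S59lib.LevelQ2.Q1W
import Fermat.Agent.S59lib.LevelQ2.NonEisW
import Fermat.Agent.S59lib.AuxPrime.Remove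

set_option autoImplicit false
set_option linter.unusedSectionVars false
set_option linter.style.haveILetI false

noncomputable section

namespace Fermat.Agent.S59lib.MazurW

open ModularCurve Fermat.Agent.S59lib.LevelQ2 Fermat.Agent.S43lib.B0

local notation "Qb" => AlgebraicClosure ℚ

/-! ### the two direct cases -/

/-- **Mazur's principle for `W` at the elliptic-free levels**, `p` odd, `q ≥ 5`, `q ≠ p`. -/
theorem mazurW_EF {p q : ℕ} (hp : p.Prime) (hp2 : p ≠ 2) (hq : q.Prime) (h5 : 5 ≤ q) (hqp : q ≠ p) :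
    MazurWAt p q (fun N => nuTwo (N / q) = 0 ∧ nuThree (N / q) = 0) := by
  intro W hΔ hirr N hN hL hqN hq2 hres hunr hdisj
  haveI : NeZero N := ⟨hN.ne'⟩
  exact resMod_div_of_tamePackage q1WStmt nonEisWStmt hp hp2 W hΔ hirr hq hqp hqN hunr hdisj
    (fun A hA => tamePackage_EF N q p hq h5 hqN hq2 hL.1 hL.2 hp hqp.symm A hA) hres

/-- **Mazur's principle for `W` at every level**, `p ≥ 5`, `q ≥ 5`, `q ≠ p`. -/
theorem mazurW_large {p q : ℕ} (hp : p.Prime) (hp5 : 5 ≤ p) (hq : q.Prime) (h5 : 5 ≤ q)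
    (hqp : q ≠ p) : MazurWAt p q (fun _ => True) := by
  intro W hΔ hirr N hN _ hqN hq2 hres hunr hdisj
  haveI : NeZero N := ⟨hN.ne'⟩
  exact resMod_div_of_tamePackage q1WStmt nonEisWStmt hp (by omega) W hΔ hirr hq hqp hqN hunr hdisj
    (fun A hA => tameGeomStmt N q p hq h5 hqN hq2 hp hp5 hqp.symm A hA) hres

/-! ### the auxiliary prime -/

/-- no square root of `-1` modulo a prime `r ≡ 3 (4)` -/
theorem sq_add_one_ne_zero {r : ℕ} (hr : r.Prime) (hr4 : r % 4 = 3) (x : ZMod r) :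
    x ^ 2 + 1 ≠ 0 := by
  haveI : Fact r.Prime := ⟨hr⟩
  intro h
  have h1 : IsSquare (-1 : ZMod r) := ⟨x, by linear_combination -h⟩
  exact (ZMod.exists_sq_eq_neg_one_iff.1 h1) hr4

/-- no primitive cube root of `1` modulo a prime `r ≡ 2 (3)` -/
theorem sq_add_self_add_one_ne_zero {r : ℕ} (hr : r.Prime) (hr3 : r % 3 = 2) (x : ZMod r) :
    x ^ 2 + x + 1 ≠ 0 := by
  haveI : Fact r.Prime := ⟨hr⟩
  intro h
  have h3 : x ^ 3 = 1 := by linear_combination (x - 1) * h
  have hx1 : x ≠ 1 := by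
    rintro rfl
    have h30 : ((3 : ℕ) : ZMod r) = 0 := by
      have : (1 : ZMod r) ^ 2 + 1 + 1 = 3 := by norm_num
      rw [this] at h
      exact_mod_cast h
    rw [ZMod.natCast_eq_zero_iff] at h30
    have := (Nat.prime_dvd_prime_iff_eq hr Nat.prime_three).1 h30
    omega
  have hx0 : x ≠ 0 := by
    rintro rfl
    simp at h3
  set u : (ZMod r)ˣ := Units.mk0 x hx0 with hu
  have hu3 : u ^ 3 = 1 := by
    apply Units.ext
    rw [Units.val_pow_eq_pow_val, Units.val_one, hu, Units.val_mk0, h3]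
  have hu1 : u ≠ 1 := by
    intro h1
    apply hx1
    have := congrArg Units.val h1
    rwa [hu, Units.val_mk0, Units.val_one] at this
  have hord : orderOf u = 3 := orderOf_eq_prime hu3 hu1
  have hdvd : 3 ∣ r - 1 := hord ▸ ZMod.orderOf_units_dvd_card_sub_one u
  have hr2 := hr.two_le
  omega

/-- a level divisible by a prime `r ≡ 11 (12)` is elliptic-free -/
theorem nu_eq_zero_of_aux {r K : ℕ} (hr : r.Prime) (hr12 : r % 12 = 11) (hrK : r ∣ K) :
    nuTwo K = 0 ∧ nuThree K = 0 :=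
  ⟨Fermat.Agent.S18lib.Gin0.nuTwo_eq_zero_of_dvd hrK (sq_add_one_ne_zero hr (by omega)),
    Fermat.Agent.S18lib.Gin0.nuThree_eq_zero_of_dvd hrK
      (sq_add_self_add_one_ne_zero hr (by omega))⟩

/-- **auxiliary primes for `(W, p)`**: arbitrarily large good primes `r₀ ≡ 11 (mod 12)` at which `ρ̄` admits
no level raising.  (Chebotarev in `ℚ(W[p], i)`; for `p = 3` the condition is `3 ∤ a_{r₀}(W)`.) -/
def HasAuxPrime (W : WeierstrassCurve ℤ) (p : ℕ) : Prop :=
  ∀ S : Finset ℕ, ∃ r : ℕ, r.Prime ∧ r ∉ S ∧ r % 12 = 11 ∧ ¬ (r : ℤ) ∣ W.Δ ∧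
    ¬ (p : ℤ) ∣ W.apOfModel r ^ 2 - ((r : ℤ) + 1) ^ 2

/-- **Mazur's principle for `W` at every level, with an auxiliary prime**: `p` odd, `q ≥ 5`, `q ≠ p`. -/
theorem mazurW_of_aux {p q : ℕ} (hp : p.Prime) (hp2 : p ≠ 2) (hq : q.Prime) (h5 : 5 ≤ q)
    (hqp : q ≠ p) (W : WeierstrassCurve ℤ) (hΔ : W.Δ ≠ 0) (hirr : W.ModRepIsIrreducible p)
    (haux : HasAuxPrime W p) (N : ℕ) (hN : 0 < N) (hqN : q ∣ N) (hq2 : ¬ q ^ 2 ∣ N)
    (hres : W.IsResiduallyModularOfLevel p N) (hunr : ModPUnramifiedAt W p q)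
    (hdisj : ¬ q ≡ 1 [MOD p] ∨ ¬ DecompScalarAtW W p q) :
    W.IsResiduallyModularOfLevel p (N / q) := by
  obtain ⟨r, hr, hrS, hr12, hrgood, hrlr⟩ := haux (insert p (insert q N.primeFactors))
  have hrp : r ≠ p := fun h => hrS (h ▸ Finset.mem_insert_self _ _)
  have hrq : r ≠ q := fun h =>
    hrS (Finset.mem_insert_of_mem (h ▸ Finset.mem_insert_self _ _))
  have hrN : ¬ r ∣ N := fun h => hrS (Finset.mem_insert_of_mem (Finset.mem_insert_of_mem
    (Nat.mem_primeFactors.2 ⟨hr, h, hN.ne'⟩)))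
  obtain ⟨K, rfl⟩ := hqN
  have hK : K ≠ 0 := by
    rintro rfl
    simp at hN
  have hdiv : q * K / q = K := Nat.mul_div_cancel_left _ hq.pos
  have hdiv' : q * K * r / q = K * r := by
    rw [mul_assoc, Nat.mul_div_cancel_left _ hq.pos]
  rw [hdiv]
  -- up to the level `N r`
  have hres' : W.IsResiduallyModularOfLevel p (q * K * r) :=
    Fermat.Agent.S59lib.AuxPrime.isResiduallyModularOfLevel_mul hN.ne' hr.ne_zero hres
  -- Mazur's principle at the elliptic-free level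
  have hL : nuTwo (q * K * r / q) = 0 ∧ nuThree (q * K * r / q) = 0 := by
    rw [hdiv']
    exact nu_eq_zero_of_aux hr hr12 (Dvd.intro_left K rfl)
  have hq2' : ¬ q ^ 2 ∣ q * K * r := by
    intro h
    have h1 : q ∣ K * r := by
      have : q * q ∣ q * (K * r) := by
        rw [← mul_assoc, ← pow_two]
        exact h
      exact Nat.dvd_of_mul_dvd_mul_left hq.pos this
    rcases (Nat.Prime.dvd_mul hq).1 h1 with h2 | h2
    · exact hq2 (by rw [pow_two]; exact Nat.mul_dvd_mul_left q h2)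
    · exact hrq ((Nat.prime_dvd_prime_iff_eq hq hr).1 h2).symm
  have hlow := mazurW_EF hp hp2 hq h5 hqp W hΔ hirr (q * K * r)
    (Nat.mul_pos hN hr.pos) hL (Dvd.intro _ (mul_assoc q K r).symm) hq2' hres' hunr hdisj
  rw [hdiv'] at hlow
  -- removal of the auxiliary prime
  have hrK : ¬ r ∣ K := fun h => hrN (h.mul_left q)
  exact Fermat.Agent.S59lib.AuxPrime.removeAux p hp W hΔ K r hK hr hrK hrp hrgood hrlr hlow

end Fermat.Agent.S59lib.MazurW

end
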