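/-
S59lib / MazurW / HeckeTwo  (helper8)  — Project I, block `LowerOneBlock`, part B0 at the prime `q = 2`.

**`T̄_ℓ = ℓ + 1` on the Eisenstein subgroup for an ODD Hecke prime `ℓ`, residue characteristic `q` ARBITRARY**
(`q = 2` included).  Main's chain `Q4.normExpr_X0 → normAlong_betaK_H₂ → heckeDivK_divOf_H₂ →
sum_nodeMatrix_mul_ord_H₂ → nodeHomPair_eq_smul_of_mem_eisSub` carries `q ≠ 2`, used ONLY to cancel the sign
`ε^(q+1)`, `ε = ∏_{i<ℓ} ζ^i`, `ε² = 1`, in the norm identity for `X0 = Δ(t)/Δ(t^q)`.  For `ℓ` odd, `ε = 1`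
(`∑_{i<ℓ} i = ℓ (ℓ-1)/2` is a multiple of `ℓ`), and the identity holds for every `q` prime to `ℓ`.

* `epsUnit_eq_one_of_odd`, `normExpr_X0_of_odd`;
* `normAlong_betaK_H₂_of_odd`, `heckeDivK_divOf_H₂_of_odd`, `sum_nodeMatrix_mul_ord_H₂_of_odd`;
* `nodeHom_eisVec_of_odd`, **`nodeHomPair_eq_smul_of_mem_eisSub_of_odd`**.
-/
import Mathlib
import Fermat.Agent.S44lib.Q4.PsiHecke

set_option autoImplicit false
set_option linter.unusedSectionVars false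
set_option linter.style.haveILetI false

noncomputable section

namespace Fermat.Agent.S59lib.MazurW

open AlgebraicCurve ModularCurve IntermediateField Fermat.Agent.S18lib Fermat.Agent.S37lib
open Fermat.Agent.S28lib Fermat.Agent.LSb Fermat.Agent.LSb.Unit Fermat.Agent.S44lib
open Fermat.Agent.S44lib.Q4 HahnSeries Fermat.Agent.S28lib.BrickB

local notation "Qb" => AlgebraicClosure ℚ

/-! ### the formal identity -/

section LS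

variable {R : Type*} [CommRing R] [IsDomain R]

omit [IsDomain R] in
/-- `ε = ∏_{i<ℓ} ζ^i = 1` for `ℓ` odd -/
theorem epsUnit_eq_one_of_odd {ζ : R} {ℓ : ℕ} (hζ : ζ ^ ℓ = 1) (hodd : Odd ℓ) :
    epsUnit ζ ℓ = 1 := by
  obtain ⟨m, hm⟩ := hodd
  have h2 : (∑ i ∈ Finset.range ℓ, i) = ℓ * m := by
    have h := Finset.sum_range_id_mul_two ℓ
    have h3 : ℓ * (ℓ - 1) = ℓ * m * 2 := by
      rw [hm]
      have : 2 * m + 1 - 1 = 2 * m := by omega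
      rw [this]
      ring
    rw [h3] at h
    exact Nat.eq_of_mul_eq_mul_right (by norm_num) h
  rw [epsUnit, Finset.prod_pow_eq_pow_sum, h2, pow_mul, hζ, one_pow]

variable {ζ : Rˣ} {ℓ : ℕ} [NeZero ℓ]

/-- **`X0(q^(ℓ²)) ∏_{i<ℓ} X0(ζ^i q) = X0(q^ℓ)^(ℓ+1)`** for `X0 = Δ(q)/Δ(q^p)`, `ℓ` an odd prime, `p` prime
to `ℓ` (`p = 2` allowed) -/
theorem normExpr_X0_of_odd (hℓ : ℓ.Prime) (hodd : Odd ℓ) (hζ : IsPrimitiveRoot ζ ℓ) (p : ℕ)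
    [NeZero p] (hpℓ : Nat.Coprime p ℓ) :
    normExpr ζ ℓ (X0 R p) = qExpand R ℓ (X0 R p) ^ (ℓ + 1) := by
  have hζ' : IsPrimitiveRoot (ζ : R) ℓ := IsPrimitiveRoot.coe_units_iff.mpr hζ
  have hζp : IsPrimitiveRoot (ζ ^ p) ℓ := hζ.pow_of_coprime p hpℓ
  have hε : epsUnit (ζ : R) ℓ = 1 := epsUnit_eq_one_of_odd hζ'.pow_eq_one hodd
  have hA := normExpr_DeltaQ hℓ hζ
  have hB : normExpr ζ ℓ (qExpand R p (DeltaInvQ R)) =
      HahnSeries.C (epsUnit (ζ : R) ℓ ^ p) * qExpand R ℓ (qExpand R p (DeltaInvQ R)) ^ (ℓ + 1) := by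
    rw [normExpr_qExpand, normExpr_DeltaInvQ hℓ hζp, map_mul, map_pow, qExpand_C,
      Units.val_pow_eq_pow_val, epsUnit_pow, qExpand_qExpand, qExpand_qExpand,
      qExpand_congr (mul_comm p ℓ) (DeltaInvQ R)]
  rw [X0, map_mul, hA, hB, map_mul, hε, one_pow, map_one, one_mul, one_mul, mul_pow]

end LS

/-! ### the norm of `β̄ H₂` -/

variable {A : ValuationSubring (AlgebraicClosure ℚ)} {M ℓ q : ℕ} [NeZero M] [NeZero ℓ] [NeZero q]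
variable [hq : Fact q.Prime]

local notation "kA" => IsLocalRing.ResidueField A

section Norm

variable [HasPrincipalDivisors (IsLocalRing.ResidueField A) (FRes A (M * ℓ))]

/-- **(E2), function level, `ℓ` odd**: `N_ᾱ (β̄ H₂) = H₂^(ℓ+1)`. -/
theorem normAlong_betaK_H₂_of_odd (hA : A.LiesOverPrime q) (hodd : Odd ℓ) (hqℓ : q ≠ ℓ)
    (hqMℓ : ¬ q ∣ M * ℓ) (hℓ : ℓ.Prime) (hℓM : ¬ ℓ ∣ M)
    {D1 : GaussDatum A (FBar (M * q)) (FRes A M)} (h1 : Old.IsGaussOne D1) :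
    ES.normAlong (alphaK A M ℓ) (betaK A M ℓ (H₂ D1)) = H₂ D1 ^ (ℓ + 1) := by
  haveI : NeZero ((ℓ : ℕ) : kA) := ⟨Gink.natCast_ne_zero_kRes hA (fun h => hqℓ
    ((Nat.prime_dvd_prime_iff_eq hq.out hℓ).mp h))⟩
  obtain ⟨ζ0, hζ0⟩ := HasEnoughRootsOfUnity.exists_primitiveRoot kA ℓ
  set ζ : kAˣ := (hζ0.isUnit (NeZero.ne ℓ)).unit with hζdef
  have hζ : IsPrimitiveRoot ζ ℓ := by
    rw [← IsPrimitiveRoot.coe_units_iff]
    exact hζ0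
  have hcop : Nat.Coprime q ℓ := (Nat.coprime_primes hq.out hℓ).mpr hqℓ
  apply Subtype.ext
  apply qExpand_injective (R := kA) (M * ℓ * (M * ℓ))
  rw [qExpand_normAlong_betaK hA hqMℓ hℓ hℓM hζ, coe_H₂ h1, normExpr_X0_of_odd hℓ hodd hζ q hcop,
    map_pow, qExpand_qExpand, SubmonoidClass.coe_pow, map_pow, coe_H₂ h1]
  congr 1
  exact qExpand_congr (by ring) _

end Norm

/-! ### the row sums -/

section RowSum

variable [hℓ : Fact ℓ.Prime]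
variable [HasPrincipalDivisors (IsLocalRing.ResidueField A) (FRes A M)]
variable [HasPrincipalDivisors (IsLocalRing.ResidueField A) (FRes A (M * ℓ))]

/-- `T̄_ℓ (div H₂) = (ℓ + 1) • div H₂`, `ℓ` odd -/
theorem heckeDivK_divOf_H₂_of_odd (hA : A.LiesOverPrime q) (hodd : Odd ℓ) (hqℓ : q ≠ ℓ)
    (hqMℓ : ¬ q ∣ M * ℓ) (hℓM : ¬ ℓ ∣ M)
    (hdeg : ∀ w : Place kA (FRes A (M * ℓ)), w.deg = 1)
    {D1 : GaussDatum A (FBar (M * q)) (FRes A M)} (h1 : Old.IsGaussOne D1) :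
    heckeDivK A M ℓ (divOf (K := kA) (H₂ D1)) = ((ℓ : ℤ) + 1) • divOf (K := kA) (H₂ D1) := by
  ext v
  rw [heckeDivK_apply_eq_ord A M ℓ hA hqMℓ hdeg (H₂_ne_zero h1) (fun v => divOf_apply' _ v) v,
    normAlong_betaK_H₂_of_odd hA hodd hqℓ hqMℓ hℓ.out hℓM h1, S18lib.Cech.ord_pow,
    Finsupp.smul_apply, divOf_apply', smul_eq_mul]
  push_cast
  ring

variable {ι : Type*} [Fintype ι]

/-- **(E2) for an arbitrary enumeration of the nodes**, `ℓ` odd -/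
theorem sum_nodeMatrix_mul_ord_H₂_of_odd {x : ι → Place kA (FRes A M)}
    (hx : Function.Injective x)
    (hA : A.LiesOverPrime q) (hodd : Odd ℓ) (hqℓ : q ≠ ℓ)
    (hqMℓ : ¬ q ∣ M * ℓ) (hℓM : ¬ ℓ ∣ M)
    (hdeg : ∀ w : Place kA (FRes A (M * ℓ)), w.deg = 1)
    {D1 : GaussDatum A (FBar (M * q)) (FRes A M)} (h1 : Old.IsGaussOne D1)
    (hnodes : ∀ Q : Place kA (FRes A M), Q ∈ modNodes D1 ↔ ∃ c, x c = Q) (c : ι) :
    ∑ c' : ι, nodeMatrix x (heckeDivK A M ℓ) c c' * (x c').ord (H₂ D1) =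
      ((ℓ : ℤ) + 1) * (x c).ord (H₂ D1) := by
  have hℓk : ((ℓ : ℕ) : kA) ≠ 0 := Gink.natCast_ne_zero_kRes hA (fun h => hqℓ
    ((Nat.prime_dvd_prime_iff_eq hq.out hℓ.out).mp h))
  refine sum_nodeMatrix_mul_ord hx (heckeDivK A M ℓ) ((ℓ : ℤ) + 1)
    (heckeDivK_divOf_H₂_of_odd hA hodd hqℓ hqMℓ hℓM hdeg h1) ?_ c
  intro Q hord hQ c'
  have hQn : Q ∉ modNodes D1 := by
    intro hmem
    obtain ⟨c₀, hc₀⟩ := (hnodes Q).1 hmem
    exact hQ c₀ hc₀.symm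
  refine heckeDivK_single_apply_eq_zero hℓk (jK_not_mem_of_not_mem_modNodes hA h1 hord hQn) ?_
  exact ((hnodes (x c')).2 ⟨c', rfl⟩).1

/-- **`eis`, one component, `ℓ` odd** -/
theorem nodeHom_eisVec_of_odd {x : ι → Place kA (FRes A M)} (hx : Function.Injective x)
    (hA : A.LiesOverPrime q) (hodd : Odd ℓ) (hqℓ : q ≠ ℓ)
    (hqMℓ : ¬ q ∣ M * ℓ) (hℓM : ¬ ℓ ∣ M)
    (hdeg : ∀ w : Place kA (FRes A (M * ℓ)), w.deg = 1)
    {D1 : GaussDatum A (FBar (M * q)) (FRes A M)} (h1 : Old.IsGaussOne D1)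
    (hnodes : ∀ Q : Place kA (FRes A M), Q ∈ modNodes D1 ↔ ∃ c, x c = Q) (m : ℕ) :
    nodeHom x (heckeDivK A M ℓ) m (eisVec D1 x m) = ((ℓ : ℤ) + 1) • eisVec D1 x m := by
  funext c
  have h := sum_nodeMatrix_mul_ord_H₂_of_odd hx hA hodd hqℓ hqMℓ hℓM hdeg h1 hnodes c
  have h' := congrArg (fun z : ℤ => (z : ZMod m)) h
  simp only [Int.cast_sum, Int.cast_mul] at h'
  rw [nodeHom_apply, Pi.smul_apply, zsmul_eq_mul]
  exact h'

/-- the same for every multiple of the Eisenstein vector -/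
theorem nodeHom_smul_eisVec_of_odd {x : ι → Place kA (FRes A M)} (hx : Function.Injective x)
    (hA : A.LiesOverPrime q) (hodd : Odd ℓ) (hqℓ : q ≠ ℓ)
    (hqMℓ : ¬ q ∣ M * ℓ) (hℓM : ¬ ℓ ∣ M)
    (hdeg : ∀ w : Place kA (FRes A (M * ℓ)), w.deg = 1)
    {D1 : GaussDatum A (FBar (M * q)) (FRes A M)} (h1 : Old.IsGaussOne D1)
    (hnodes : ∀ Q : Place kA (FRes A M), Q ∈ modNodes D1 ↔ ∃ c, x c = Q) (m : ℕ) (t : ℤ) :
    nodeHom x (heckeDivK A M ℓ) m (t • eisVec D1 x m) =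
      ((ℓ : ℤ) + 1) • (t • eisVec D1 x m) := by
  rw [map_zsmul, nodeHom_eisVec_of_odd hx hA hodd hqℓ hqMℓ hℓM hdeg h1 hnodes m, smul_comm]

/-- **`eis`, `ℓ` odd**: `TR ℓ = ℓ + 1` on the Eisenstein subgroup, residue characteristic arbitrary. -/
theorem nodeHomPair_eq_smul_of_mem_eisSub_of_odd
    (D : NodalDatum A (FBar (M * q)) (FRes A M) (FRes A M))
    (hx₁ : Function.Injective D.x₁) (hx₂ : Function.Injective D.x₂)
    (hA : A.LiesOverPrime q) (hodd : Odd ℓ) (hqℓ : q ≠ ℓ) (hqMℓ : ¬ q ∣ M * ℓ) (hℓM : ¬ ℓ ∣ M)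
    (hdeg : ∀ w : Place kA (FRes A (M * ℓ)), w.deg = 1) (h1 : Old.IsGaussOne D.V₁)
    (hn₁ : ∀ Q : Place kA (FRes A M), Q ∈ modNodes D.V₁ ↔ ∃ c, D.x₁ c = Q)
    (hn₂ : ∀ Q : Place kA (FRes A M), Q ∈ modNodes D.V₁ ↔ ∃ c, D.x₂ c = Q) (m : ℕ)
    {r : (Fin D.s → ZMod m) × (Fin D.s → ZMod m)} (hr : r ∈ eisSub D m) :
    nodeHomPair ℓ D m r = ((ℓ : ℤ) + 1) • r := by
  obtain ⟨⟨t₁, ht₁⟩, ⟨t₂, ht₂⟩⟩ := mem_eisSub.1 hr
  refine Prod.ext ?_ ?_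
  · show nodeHom D.x₁ (heckeDivK A M ℓ) m r.1 = ((ℓ : ℤ) + 1) • r.1
    rw [← ht₁]
    exact nodeHom_smul_eisVec_of_odd hx₁ hA hodd hqℓ hqMℓ hℓM hdeg h1 hn₁ m t₁
  · show nodeHom D.x₂ (heckeDivK A M ℓ) m r.2 = ((ℓ : ℤ) + 1) • r.2
    rw [← ht₂]
    exact nodeHom_smul_eisVec_of_odd hx₂ hA hodd hqℓ hqMℓ hℓM hdeg h1 hn₂ m t₂

end RowSum

end Fermat.Agent.S59lib.MazurW

end
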