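/-
S59lib / MazurW / CoreTwo  (helper8)  — Project I, block `LowerOneBlock`, part B0: THE TAME CORE AT `q = 2`.

Level `M · 2`, `9 ∣ M` (`GoodPair M 2`: the level structure of order `9` rigidifies the supersingular points in
characteristic `2`), torsion exponent a prime `p ≥ 5`.  All fields of `S43lib.B0.TameCore` except `eis` are
generic over the good pairs (helper6's `Gen.modCtxG`, `Gen.resMap_psi_mem_eisSub_tameC`); `eis` at `q = 2` is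
`HeckeTwo.nodeHomPair_eq_smul_of_mem_eisSub_of_odd` (the Hecke primes `ℓ ∤ 2 M` are odd).

* `tameCoreOfCtxE` : `TameCore` from a nodal context, `mono` and `eis` as hypotheses (no `q ≠ 2`);
* `tEis_hecke_two`, `ord12_two`, `tMono_two`;
* **`tameCoreTwo`**.
-/
import Fermat.Agent.S43lib.B0.Pkg.Core
import Fermat.Agent.S59lib.MazurW.HeckeTwo

set_option autoImplicit false
set_option linter.unusedSectionVars false
set_option linter.style.haveILetI false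

noncomputable section

namespace Fermat.Agent.S59lib.MazurW

open AlgebraicCurve ModularCurve Fermat.Agent.S18lib Fermat.Agent.S37lib
open Fermat.Agent.LSb Fermat.Agent.LSb.Unit Fermat.Agent.S19lib
open Fermat.Agent.S44lib Fermat.Agent.S44lib.Kap Fermat.Agent.S44lib.Q4
open Fermat.Agent.S43lib.B0

local notation "Qb" => AlgebraicClosure ℚ
local notation "GQ" => (AlgebraicClosure ℚ ≃ₐ[ℚ] AlgebraicClosure ℚ)

variable {M q : ℕ} [NeZero M] [NeZero q] [hq : Fact q.Prime] {A : ValuationSubring Qb}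

local notation "kA" => IsLocalRing.ResidueField A

variable (hqM : ¬ q ∣ M) (hA : A.LiesOverPrime q) (p : ℕ)

/-- **the tame core at level `M q` from a nodal context**, the tame `(M′)` and the Eisenstein eigenvalue as
hypotheses; `q` arbitrary, torsion exponent any prime `p ≠ q`. -/
def tameCoreOfCtxE (C : NodalCtx (modNod hqM hA) (modG M q) (modGk hqM hA) (modGk hqM hA))
    [Fact p.Prime] (hpq : p ≠ q)
    (hmono : ∀ x ∈ tors (M * q) (p : ℤ), (∀ σ ∈ IA A, σ • x = x) →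
      tRes hqM hA p (tPsi hqM hA p x) ∈ tEis hqM hA p)
    (heis : ∀ (ℓ : Nat.Primes), ¬ (ℓ : ℕ) ∣ M * q → ∀ ρ ∈ tEis hqM hA p,
      tTR hqM hA p ℓ ρ = (((ℓ : ℕ) : ℤ) + 1) • ρ) :
    TameCore (M * q) q p A where
  Ω := TOm A M p
  R := TRes hqM hA p
  Ψ := tPsi hqM hA p
  res := tRes hqM hA p
  TΩ := tTΩ A M p
  TR := tTR hqM hA p
  Eis := tEis hqM hA p
  K := tK hqM hA p
  w := wqJHom hqM
  Ψ_add := tPsi_add hqM hA p
  Ψ_hecke := tPsi_hecke hqM hA p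
  res_hecke := tRes_hecke hqM hA p C
  K_le := tK_le hqM hA p
  mem_K := mem_tK hqM hA p C (Fact.out : p.Prime).pos
  p_smul_R := fun ρ => m_smul_res p ρ
  mono := hmono
  eis := fun ℓ hℓN _ ρ hρ => heis ℓ hℓN ρ hρ
  w_galois := wqJHom_galois hqM
  w_invol := wqJHom_wqJHom hqM
  frobK := tFrobK hqM hA p C (fun h =>
    hpq ((Nat.prime_dvd_prime_iff_eq hq.out (Fact.out : p.Prime)).1 h).symm)

theorem tameCoreOfCtxE_Ψ (C : NodalCtx (modNod hqM hA) (modG M q) (modGk hqM hA) (modGk hqM hA))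
    [Fact p.Prime] (hpq : p ≠ q)
    (hmono : ∀ x ∈ tors (M * q) (p : ℤ), (∀ σ ∈ IA A, σ • x = x) →
      tRes hqM hA p (tPsi hqM hA p x) ∈ tEis hqM hA p)
    (heis : ∀ (ℓ : Nat.Primes), ¬ (ℓ : ℕ) ∣ M * q → ∀ ρ ∈ tEis hqM hA p,
      tTR hqM hA p ℓ ρ = (((ℓ : ℕ) : ℤ) + 1) • ρ) :
    (tameCoreOfCtxE hqM hA p C hpq hmono heis).Ψ = tPsi hqM hA p := rfl

theorem tameCoreOfCtxE_res (C : NodalCtx (modNod hqM hA) (modG M q) (modGk hqM hA) (modGk hqM hA))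
    [Fact p.Prime] (hpq : p ≠ q)
    (hmono : ∀ x ∈ tors (M * q) (p : ℤ), (∀ σ ∈ IA A, σ • x = x) →
      tRes hqM hA p (tPsi hqM hA p x) ∈ tEis hqM hA p)
    (heis : ∀ (ℓ : Nat.Primes), ¬ (ℓ : ℕ) ∣ M * q → ∀ ρ ∈ tEis hqM hA p,
      tTR hqM hA p ℓ ρ = (((ℓ : ℕ) : ℤ) + 1) • ρ) :
    (tameCoreOfCtxE hqM hA p C hpq hmono heis).res = tRes hqM hA p := rfl

/-- `eis` at `q = 2`: the Hecke primes are odd -/
theorem tEis_hecke_two (hq2 : q = 2) (ℓ : Nat.Primes) (hℓN : ¬ (ℓ : ℕ) ∣ M * q)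
    (ρ : TRes hqM hA p) (hρ : ρ ∈ tEis hqM hA p) :
    tTR hqM hA p ℓ ρ = (((ℓ : ℕ) : ℤ) + 1) • ρ := by
  haveI : NeZero (ℓ : ℕ) := ⟨ℓ.2.ne_zero⟩
  haveI : Fact (ℓ : ℕ).Prime := ⟨ℓ.2⟩
  have hqMℓ : ¬ q ∣ M * (ℓ : ℕ) := S35lib.New.wqHecke_not_dvd M q hq.out hqM ℓ.2 hℓN
  have hℓM : ¬ (ℓ : ℕ) ∣ M := fun h => hℓN (h.trans (Dvd.intro q rfl))
  have hqℓ : q ≠ (ℓ : ℕ) := by
    intro h
    exact hℓN (h ▸ Dvd.intro_left M rfl)
  have hodd : Odd (ℓ : ℕ) := ℓ.2.odd_of_ne_two (fun h => hqℓ (hq2.trans h.symm))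
  haveI : HasPrincipalDivisors kA (FRes A M) := modHpdK hqM hA
  haveI : HasPrincipalDivisors kA (FRes A (M * (ℓ : ℕ))) := modHpdK hqMℓ hA
  rw [tTR_of_not_dvd hqM hA p ℓ hqMℓ]
  exact nodeHomPair_eq_smul_of_mem_eisSub_of_odd (modNod hqM hA) (modX₁_injective hA)
    modX₂_injective hA hodd hqℓ hqMℓ hℓM (deg_eq_one_FRes hA hqMℓ) (modD1_isGaussOne hqM hA)
    (mem_modNodes_iff_modX₁ hA (modD1_isGaussOne hqM hA))
    (mem_modNodes_iff_modX₂ (modD1_isGaussOne hqM hA)) p hρ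

/-- `a_c = 12` at a good pair with `q = 2` -/
theorem ord12_two (hq2 : q = 2) (h9 : 9 ∣ M) :
    ∀ c : Fin (modS (Kap.modD1 hqM hA)),
      (modX₁ hA (Kap.modD1 hqM hA) c).ord (H₂ (Kap.modD1 hqM hA)) = 12 ∧
        (modX₂ (Kap.modD1 hqM hA) c).ord (H₂ (Kap.modD1 hqM hA)) = 12 := by
  subst hq2
  exact S36lib.Count.ord_H₂_modX_two h9 hqM hA (modD1_isGaussOne hqM hA)

/-- `mono`, `q = 2`, `9 ∣ M` -/
theorem tMono_two (hq2 : q = 2) (h9 : 9 ∣ M) [Fact p.Prime] (hp5 : 5 ≤ p) :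
    ∀ x ∈ tors (M * q) (p : ℤ), (∀ σ ∈ IA A, σ • x = x) →
      tRes hqM hA p (tPsi hqM hA p x) ∈ tEis hqM hA p :=
  fun _ hx hfix => Gen.resMap_psi_mem_eisSub_tameC hqM hA
    (Gen.modCtxG hqM hA (Or.inr (Or.inl ⟨hq2, h9⟩))) (ord12_two hqM hA hq2 h9)
    (not_dvd_twelve p hp5) hx hfix

/-- **the tame core at level `M · 2`**, `9 ∣ M`, `2 ∤ M`, `A ∣ 2`, torsion exponent a prime `p ≥ 5`. -/
def tameCoreTwo (hq2 : q = 2) (h9 : 9 ∣ M) [Fact p.Prime] (hp5 : 5 ≤ p) :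
    TameCore (M * q) q p A :=
  tameCoreOfCtxE hqM hA p (Gen.modCtxG hqM hA (Or.inr (Or.inl ⟨hq2, h9⟩))) (by omega)
    (tMono_two hqM hA p hq2 h9 hp5) (fun ℓ hℓN ρ hρ => tEis_hecke_two hqM hA p hq2 ℓ hℓN ρ hρ)

theorem tameCoreTwo_Ψ (hq2 : q = 2) (h9 : 9 ∣ M) [Fact p.Prime] (hp5 : 5 ≤ p) :
    (tameCoreTwo hqM hA p hq2 h9 hp5).Ψ = tPsi hqM hA p := rfl

theorem tameCoreTwo_res (hq2 : q = 2) (h9 : 9 ∣ M) [Fact p.Prime] (hp5 : 5 ≤ p) :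
    (tameCoreTwo hqM hA p hq2 h9 hp5).res = tRes hqM hA p := rfl

end Fermat.Agent.S59lib.MazurW

end
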