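/-
S59lib / MazurW / Small  (helper8)  — Project I, block `LowerOneBlock`, part B0: **MAZUR'S PRINCIPLE FOR `W` AT
THE SMALL PRIMES `q = 2, 3`**, torsion exponent `p ≥ 5` (so `q ≢ 1 (p)` automatically; for S59: `p = 5`).

`N = M q`, `q ∤ M`, `ρ̄ = W[p]` irreducible, residually modular of level `N`, unramified at `q`
⟹  `ρ̄` residually modular of level `M`.

The nodal model of `X₀(M q)` at `q ∈ {2, 3}` needs a rigidifying level (`GoodPair`: `9 ∣ M` resp. `4 ∣ M`), so we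
pass to the auxiliary level `N' = (M r²) q`, `r = 3` resp. `r = 2`, exactly as in Project H's
`S43lib/B0/Three/Main` (which is the case `q = 3` for a Frey package):

* `V ≅ W[p]` inside `J₀(N)[p]` (Q1 for `W`);  `V' = π^* V ⊆ J₀(N')[p]`, `π^* = pullJ` Galois equivariant and
  injective on the `p`-torsion (degree `r²` or `r (r + 1)`, prime to `p`);
* `T'_ℓ = a_ℓ` on `V'` (`hecke_eq_of_galois_equivariantW`: Eichler–Shimura at level `N'` + characteristic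
  polynomial of Frobenius on `W[p]`);
* the toric/abelian dichotomy at level `N'` (`exists_abelian_of_coreW`) for the tame core at `N'`
  (`S43lib.B0.tameCoreThree` resp. `CoreTwo.tameCoreTwo`): some `x' = π^* x₀` has `Ψ' x' ≠ 0`, no node orders;
* descent of the orders to the level `N` and then to `J₀(M)[p]` (`exists_eigen_torsion_small`), `torsEigenStmt`;
* the congruences at the primes `q`, `r` (if good for `W`) by helper1's `AuxPrime.exists_congr_at_good`.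

* **`mazurW_small`** : `MazurWAt p q (fun _ => True)` for `p ≥ 5`, `q ∈ {2, 3}`.
-/
import Fermat.Agent.S59lib.MazurW.Iface
import Fermat.Agent.S59lib.MazurW.CoreTwo
import Fermat.Agent.S59lib.LevelQ2.Q1W
import Fermat.Agent.S59lib.LevelQ2.NonEisW
import Fermat.Agent.S43lib.B0.Three.Main

set_option autoImplicit false
set_option linter.unusedSectionVars false
set_option linter.style.haveILetI false

noncomputable section

namespace Fermat.Agent.S59lib.MazurW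

open AlgebraicCurve ModularCurve Matrix
open Fermat.Agent.S18lib Fermat.Agent.S18lib.V Fermat.Agent.S37lib Fermat.Agent.S19lib
open Fermat.Agent.S44lib Fermat.Agent.S44lib.Kap Fermat.Agent.S33lib Fermat.Agent.S29lib
open Fermat.Agent.LSb Fermat.Agent.LSb.Unit Fermat.Agent.ProgramR
open Fermat.Agent.S59lib.LevelQ2 Fermat.Agent.S43lib.B0 Fermat.Agent.S43lib.B0.Three
open Fermat.Agent.S44lib.Q1
open WeierstrassCurve WeierstrassCurve.Affine WeierstrassCurve.Affine.Point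

local notation "Qb" => AlgebraicClosure ℚ
local notation "GQ" => (AlgebraicClosure ℚ ≃ₐ[ℚ] AlgebraicClosure ℚ)
local notation "Zbar" => integralClosure ℤ ℂ

/-! ### the degree of the auxiliary covering -/

/-- `ψ(K r²) = r² ψ(K)` or `r (r + 1) ψ(K)` -/
theorem dedekindPsi_mul_sq (K r : ℕ) (hK : K ≠ 0) (hr : r.Prime) :
    dedekindPsi (K * (r * r)) = dedekindPsi K * (r * r) ∨
      dedekindPsi (K * (r * r)) = dedekindPsi K * ((r + 1) * r) := by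
  have e : K * (r * r) = K * r * r := by ring
  have h1 : dedekindPsi (K * r * r) = dedekindPsi (K * r) * r :=
    Fermat.Agent.S28lib.Chain.dedekindPsi_mul_prime_of_dvd (mul_ne_zero hK hr.ne_zero) hr
      (Dvd.intro_left K rfl)
  rw [e, h1]
  by_cases h2 : r ∣ K
  · left
    rw [Fermat.Agent.S28lib.Chain.dedekindPsi_mul_prime_of_dvd hK hr h2]
    ring
  · right
    rw [Fermat.Agent.S28lib.Chain.dedekindPsi_mul_prime_of_not_dvd hK hr h2]
    ring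

/-- a prime `p ∤ r (r + 1)` does not divide the degree `ψ(K r²)/ψ(K)` -/
theorem not_dvd_of_dedekindPsi_mul_sq {K d p r : ℕ} (hK : K ≠ 0) (hr : r.Prime) (hp : p.Prime)
    (hpr : ¬ p ∣ r) (hpr1 : ¬ p ∣ r + 1)
    (hd : dedekindPsi K * d = dedekindPsi (K * (r * r))) : ¬ p ∣ d := by
  haveI : NeZero K := ⟨hK⟩
  have hpos : 0 < dedekindPsi K := Fermat.Agent.ProgramR.BarField.dedekindPsi_pos K
  rcases dedekindPsi_mul_sq K r hK hr with h | h
  · have hd' : d = r * r := Nat.eq_of_mul_eq_mul_left hpos (hd.trans h)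
    rw [hd']
    intro hpd
    rcases (Nat.Prime.dvd_mul hp).1 hpd with h' | h' <;> exact hpr h'
  · have hd' : d = (r + 1) * r := Nat.eq_of_mul_eq_mul_left hpos (hd.trans h)
    rw [hd']
    intro hpd
    rcases (Nat.Prime.dvd_mul hp).1 hpd with h' | h'
    · exact hpr1 h'
    · exact hpr h'

/-! ### a Galois-equivariant copy of `W[p]` is Hecke-eigen -/

/-- **Hecke eigenvalues of a Galois-equivariant copy of `W[p]` in `J₀(N')[p]`.** -/
theorem hecke_eq_of_galois_equivariantW (W : WeierstrassCurve ℤ) (hΔ : W.Δ ≠ 0) (p : ℕ)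
    [hpf : Fact p.Prime] {N' : ℕ} [NeZero N'] (ι : WTors W p →+ JZero N')
    (hι : ∀ (σ : GQ) (x : WTors W p), ι (σ • x) = σ • ι x)
    (hιt : ∀ x, ι x ∈ tors N' (p : ℤ))
    {ℓ : ℕ} (hℓ : ℓ.Prime) (htest : IsTestPrime W N' p ℓ) (y : WTors W p) :
    heckeOperatorBar N' ⟨ℓ, hℓ⟩ (ι y) = (W.apOfModel ℓ) • ι y := by
  classical
  have hp : p.Prime := hpf.out
  set d : WTors W p ≃+ (Fin 2 → ZMod p) := coordE W hΔ p with hd'
  have hd : ∀ (σ : GQ) (x : WTors W p), d (σ • x) = rhoE W hΔ p σ *ᵥ d x :=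
    fun σ x => coordE_smul W hΔ p σ x
  obtain ⟨-, hgood, hℓN', hℓp⟩ := htest
  obtain ⟨Cd, -⟩ := Fermat.Agent.S29lib.Z.compStatement N' p hp
  have hloc : LocalData N' p :=
    Fermat.Agent.S29lib.GH.localData_of_comparisonData Cd hp.ne_zero
  obtain ⟨A, φ, hA, hφ⟩ := Fermat.Agent.Helper5.exists_isFrobeniusAt ℓ hℓ
  have hℓNp : ¬ ℓ ∣ N' * p := by
    intro hdv
    rcases (Nat.Prime.dvd_mul hℓ).1 hdv with h | h
    · exact hℓN' h
    · exact hℓp ((Nat.prime_dvd_prime_iff_eq hℓ hp).1 h)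
  obtain ⟨htr, hdet⟩ := trace_det_rhoE_frob W hΔ p hℓ hℓp hgood hA hφ
  obtain ⟨z, hφz⟩ : ∃ z : WTors W p, φ • z = y := ⟨φ⁻¹ • y, smul_inv_smul _ _⟩
  have hE : φ • φ • z - (W.apOfModel ℓ) • (φ • z) + (ℓ : ℤ) • z = 0 := by
    apply d.injective
    have h1 := mulVec_quad (rhoE W hΔ p φ) (d z)
    rw [htr, hdet] at h1
    rw [_root_.map_zero, map_add, map_sub, map_zsmul, map_zsmul, hd, hd, ← h1,
      Int.cast_smul_eq_zsmul, ← Int.cast_natCast (R := ZMod p), Int.cast_smul_eq_zsmul]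
  have hJ1 : φ • φ • ι z - (W.apOfModel ℓ) • (φ • ι z) + (ℓ : ℤ) • ι z = 0 := by
    have := congrArg ι hE
    rw [_root_.map_zero, map_add, map_sub, map_zsmul, map_zsmul, hι, hι] at this
    exact this
  have hJ2 := hloc.frob ℓ hℓ hℓNp A hA φ hφ 1 (ι z) (mem_Tors_one_of_mem_tors (hιt z))
  have h3 : heckeOperatorBar N' ⟨ℓ, hℓ⟩ (φ • ι z) = (W.apOfModel ℓ) • (φ • ι z) := by
    have h4 : heckeOperatorBar N' ⟨ℓ, hℓ⟩ (φ • ι z) - (W.apOfModel ℓ) • (φ • ι z) = 0 := by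
      rw [← sub_eq_zero.2 (hJ1.trans hJ2.symm)]
      abel
    exact sub_eq_zero.1 h4
  rw [← hι, hφz] at h3
  exact h3

/-! ### the toric/abelian dichotomy for `W[p]` on a tame core -/

/-- **the abelian alternative for `W[p]`**: if `q ≢ 1 (p)`, or the decomposition group at `A` contains an
element acting on `W[p]` through a non-scalar, a Galois-equivariant Hecke-eigen copy of `W[p]` inside
`J₀(N)[p]` is not toric, and its classes have no node orders. -/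
theorem exists_abelian_of_coreW {N : ℕ} [NeZero N] {q p : ℕ} {A : ValuationSubring Qb}
    (W : WeierstrassCurve ℤ) (hΔ : W.Δ ≠ 0) [hpf : Fact p.Prime]
    (hirr : W.ModRepIsIrreducible p) (G : TameCore N q p A) (hq : q.Prime)
    (hqp : q ≠ p) (hA : A.LiesOverPrime q)
    (hItriv : ∀ τ ∈ IA A, ∀ x : WTors W p, τ • x = x)
    (hAdisj : ¬ q ≡ 1 [MOD p] ∨ ∃ σ ∈ A.decompositionSubgroup ℚ, ∀ c : ℤ,
      ¬ ∀ x : WTors W p, σ • x = c • x)
    (V : AddSubgroup (JZero N)) (e : WTors W p ≃+ V) (hVt : V ≤ tors N (p : ℤ))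
    (he : ∀ (σ : GQ) (x : WTors W p), ((e (σ • x) : V) : JZero N) = σ • ((e x : V) : JZero N))
    (a : ℕ → ℤ) (S : ℕ → Prop) (hS : ∀ ℓ, S ℓ → ℓ.Prime ∧ ¬ ℓ ∣ N ∧ ℓ ≠ p)
    (hVeig : ∀ (ℓ : ℕ) (hℓ : ℓ.Prime), S ℓ → ∀ x ∈ V, heckeOperatorBar N ⟨ℓ, hℓ⟩ x = (a ℓ) • x)
    (hnonE : ∃ ℓ, S ℓ ∧ ¬ (p : ℤ) ∣ a ℓ - (ℓ + 1)) :
    ∃ x ∈ V, G.Ψ x ≠ 0 ∧ G.res (G.Ψ x) = 0 := by
  classical
  have hp : p.Prime := hpf.out
  have hsmulV : ∀ (σ : GQ) (x : JZero N), x ∈ V → σ • x ∈ V := by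
    intro σ x hx
    have := he σ (e.symm ⟨x, hx⟩)
    rw [AddEquiv.apply_symm_apply] at this
    rw [← this]
    exact (e _).2
  have hIfix : ∀ σ ∈ IA A, ∀ x ∈ V, σ • x = x := by
    intro σ hσ x hx
    obtain ⟨y, rfl⟩ : ∃ y, ((e y : V) : JZero N) = x := ⟨e.symm ⟨x, hx⟩, by simp⟩
    have hy : σ • y = y := hItriv σ hσ y
    rw [← he σ y, hy]
  have hres : ∀ x ∈ V, G.res (G.Ψ x) = 0 := fun x hx =>
    core_res_eq_zero G hp (hVt hx) (fun σ hσ => hIfix σ hσ x hx) a S hS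
      (fun ℓ hℓ hSℓ => hVeig ℓ hℓ hSℓ x hx) hnonE
  by_contra hcon
  have hΨ : ∀ x ∈ V, G.Ψ x = 0 := by
    intro x hx
    by_contra h0
    exact hcon ⟨x, hx, h0, hres x hx⟩
  have hVK : ∀ x ∈ V, x ∈ G.K := fun x hx => (G.mem_K x (hVt hx)).2 (hΨ x hx)
  have hcop : IsCoprime (q : ℤ) (p : ℤ) := by
    have : Nat.Coprime q p := (Nat.coprime_primes hq hp).2 hqp
    exact_mod_cast Nat.isCoprime_iff_coprime.2 this
  obtain ⟨φ₀, hφ₀⟩ : ∃ φ : GQ, A.IsFrobeniusAt φ q := by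
    obtain ⟨B, σ, hB, hσ⟩ := Fermat.Agent.Helper5.exists_isFrobeniusAt q hq
    obtain ⟨g, hg⟩ := Fermat.Agent.S56lib.TWSel.exists_smul_eq_of_liesOverPrime hq hB hA
    refine ⟨g * σ * g⁻¹, ?_⟩
    rw [hg]
    exact Fermat.Agent.S56lib.TWSel.isFrobeniusAt_conj hσ
  have hwT : ∀ x ∈ tors N (p : ℤ), G.w x ∈ tors N (p : ℤ) := by
    intro x hx
    have hx' : (p : ℤ) • x = 0 := (Submodule.mem_torsionBy_iff _ _).1 hx
    show G.w x ∈ Submodule.torsionBy ℤ (JZero N) (p : ℤ)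
    rw [Submodule.mem_torsionBy_iff, ← map_zsmul, hx', _root_.map_zero]
  have hwV : ∀ x ∈ V, G.w x ∈ V := by
    intro x hx
    have h1 : φ₀ • x = -((q : ℤ) • G.w x) := G.frobK φ₀ hφ₀ x (hVK x hx)
    have h2 : (q : ℤ) • G.w x ∈ V := by
      have : (q : ℤ) • G.w x = -(φ₀ • x) := by rw [h1, neg_neg]
      rw [this]
      exact V.neg_mem (hsmulV φ₀ x hx)
    obtain ⟨u, v, huv⟩ := hcop
    have h3 : (p : ℤ) • G.w x = 0 := (Submodule.mem_torsionBy_iff _ _).1 (hwT x (hVt hx))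
    have : G.w x = u • ((q : ℤ) • G.w x) := by
      have h4 : G.w x = (u * (q : ℤ) + v * (p : ℤ)) • G.w x := by rw [huv, one_smul]
      rw [add_zsmul, mul_zsmul, mul_zsmul, h3, zsmul_zero, add_zero] at h4
      exact h4
    rw [this]
    exact V.zsmul_mem h2 u
  let wV : V →+ V :=
    { toFun := fun x => ⟨G.w (x : JZero N), hwV x x.2⟩
      map_zero' := Subtype.ext (_root_.map_zero G.w)
      map_add' := fun x y => Subtype.ext (map_add G.w (x : JZero N) (y : JZero N)) }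
  let u : WTors W p →+ WTors W p :=
    (e.symm.toAddMonoidHom.comp wV).comp e.toAddMonoidHom
  have hu_apply : ∀ y : WTors W p, ((e (u y) : V) : JZero N) = G.w ((e y : V) : JZero N) := by
    intro y
    show ((e (e.symm (wV (e y))) : V) : JZero N) = _
    rw [AddEquiv.apply_symm_apply]
    rfl
  have hinj : ∀ y y' : WTors W p, ((e y : V) : JZero N) = ((e y' : V) : JZero N) → y = y' :=
    fun y y' h => e.injective (Subtype.ext h)
  have he_zsmul : ∀ (c : ℤ) (y : WTors W p),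
      ((e (c • y) : V) : JZero N) = c • ((e y : V) : JZero N) := by
    intro c y
    have h : e (c • y) = c • e y := map_zsmul e c y
    rw [h]
    rfl
  have hu_gal : ∀ (σ : GQ) (y : WTors W p), u (σ • y) = σ • u y := by
    intro σ y
    apply hinj
    rw [hu_apply, he, G.w_galois, he, hu_apply]
  have hu_inv : ∀ y, u (u y) = y := by
    intro y
    apply hinj
    rw [hu_apply, hu_apply, G.w_invol]
  have hscalar : ∀ φ : GQ, A.IsFrobeniusAt φ q → ∃ c : ℤ, (∀ y : WTors W p, φ • y = c • y) ∧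
      (p : ℤ) ∣ c ^ 2 - (q : ℤ) ^ 2 := by
    intro φ hφ
    rcases eq_or_eq_neg_of_involutionW W p hirr u hu_gal hu_inv with hε | hε
    · refine ⟨-(q : ℤ), fun y => ?_, by simp⟩
      apply hinj
      rw [he, G.frobK φ hφ _ (hVK _ (e y).2), ← hu_apply, hε, he_zsmul, neg_zsmul]
    · refine ⟨(q : ℤ), fun y => ?_, by simp⟩
      apply hinj
      rw [he, G.frobK φ hφ _ (hVK _ (e y).2), ← hu_apply, hε, map_neg, AddSubgroup.coe_neg,
        zsmul_neg, neg_neg, he_zsmul]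
  rcases hAdisj with hr1 | ⟨σ, hσ, hns⟩
  · obtain ⟨c, hc, hc2⟩ := hscalar φ₀ hφ₀
    have h3 := detFrobW W hΔ p q A hq hqp hA φ₀ hφ₀ c hc
    have h4 : (p : ℤ) ∣ (q : ℤ) * ((q : ℤ) - 1) := by
      have : (q : ℤ) * ((q : ℤ) - 1) = (c ^ 2 - (q : ℤ)) - (c ^ 2 - (q : ℤ) ^ 2) := by ring
      rw [this]
      exact dvd_sub h3 hc2
    have hpp : Prime (p : ℤ) := Nat.prime_iff_prime_int.mp hp
    rcases hpp.dvd_or_dvd h4 with h | h
    · have : p ∣ q := by exact_mod_cast h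
      exact hqp ((Nat.prime_dvd_prime_iff_eq hp hq).1 this).symm
    · apply hr1
      have h6 : (1 : ℤ) ≡ (q : ℤ) [ZMOD (p : ℤ)] := (Int.modEq_iff_dvd).2 (by simpa using h)
      exact (Int.natCast_modEq_iff.1 (by simpa using h6.symm))
  · obtain ⟨φ, j, hφ, hσφ⟩ := decompFrobW W hΔ p q A hq hA hItriv σ hσ
    obtain ⟨c, hc, -⟩ := hscalar φ hφ
    refine hns (c ^ j) fun x => ?_
    rw [hσφ x]
    clear hσφ
    induction j generalizing x with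
    | zero => simp
    | succ j ih =>
      rw [pow_succ, mul_smul, hc, pow_succ, mul_smul]
      exact ih (c • x)

/-! ### the auxiliary level `(M r²) q` -/

section Aux

variable {M r q : ℕ} [NeZero M] [NeZero r] [NeZero q] [hq : Fact q.Prime]
variable {A : ValuationSubring Qb}

local notation "kA" => IsLocalRing.ResidueField A

theorem not_dvd_mul_sq (hr : r.Prime) (hqr : q ≠ r) (hqM : ¬ q ∣ M) : ¬ q ∣ M * (r * r) := by
  intro h
  have hq' : q.Prime := hq.out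
  rcases (Nat.Prime.dvd_mul hq').1 h with h | h
  · exact hqM h
  · rcases (Nat.Prime.dvd_mul hq').1 h with h | h <;>
      exact hqr ((Nat.prime_dvd_prime_iff_eq hq' hr).1 h)

/-- the inclusion of levels `M q ∣ (M r²) q` -/
theorem lvl_dvd_sq (M r q : ℕ) : M * q ∣ M * (r * r) * q :=
  Nat.mul_dvd_mul_right (Dvd.intro (r * r) rfl) q

/-- `p ∤ [FBar ((M r²) q) : FBar (M q)]` -/
theorem not_dvd_finrankAlong_inclL_sq (hr : r.Prime) {p : ℕ} (hp : p.Prime) (hpr : ¬ p ∣ r)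
    (hpr1 : ¬ p ∣ r + 1) : ¬ p ∣ finrankAlong Qb (inclL (lvl_dvd_sq M r q)) := by
  have h1 := dedekindPsi_mul_finrankAlong (lvl_dvd_sq M r q)
  have e : dedekindPsi (M * (r * r) * q) = dedekindPsi (M * q * (r * r)) := by
    congr 1
    ring
  exact not_dvd_of_dedekindPsi_mul_sq (NeZero.ne (M * q)) hr hp hpr hpr1 (h1.trans e)

/-- `p ∤ [FRes A (M r²) : FRes A M]` -/
theorem not_dvd_finrankAlong_inclK_sq (hr : r.Prime) (hqMs : ¬ q ∣ M * (r * r))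
    (hA : A.LiesOverPrime q) {p : ℕ} (hp : p.Prime) (hpr : ¬ p ∣ r) (hpr1 : ¬ p ∣ r + 1) :
    ¬ p ∣ finrankAlong (IsLocalRing.ResidueField A)
      (inclK A (Dvd.intro (r * r) rfl : M ∣ M * (r * r))) := by
  have h1 := dedekindPsi_mul_finrank_inclK (N := M) (N' := M * (r * r)) A (Dvd.intro (r * r) rfl)
    hqMs hA
  exact not_dvd_of_dedekindPsi_mul_sq (NeZero.ne M) hr hp hpr hpr1 h1

/-- **descent to the level `M`**: a class `x₀ ∈ J₀(M q)[p]`, Hecke-eigen, whose pull-back to the level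
`(M r²) q` (a good pair) has `Ψ' ≠ 0` and no node orders, produces a non-zero Hecke eigenclass in `J₀(M)[p]`. -/
theorem exists_eigen_torsion_small (hr : r.Prime) (hqM : ¬ q ∣ M) (hqMs : ¬ q ∣ M * (r * r))
    (hgood : GoodPair (M * (r * r)) q) (hA : A.LiesOverPrime q) (p : ℕ)
    [hpf : Fact p.Prime] (hqp : ¬ q ∣ p) (hpr : ¬ p ∣ r) (hpr1 : ¬ p ∣ r + 1)
    (x₀ : JZero (M * q)) (hx₀ : x₀ ∈ tors (M * q) (p : ℤ))
    (hΨ : tPsi hqMs hA p (pullJ (lvl_dvd_sq M r q) x₀) ≠ 0)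
    (hres : tRes hqMs hA p (tPsi hqMs hA p (pullJ (lvl_dvd_sq M r q) x₀)) = 0)
    (a : ℕ → ℤ) (S : ℕ → Prop) (hS : ∀ ℓ, S ℓ → ℓ.Prime ∧ ¬ ℓ ∣ M * q)
    (heig : ∀ (ℓ : ℕ) (hℓ : ℓ.Prime), S ℓ → heckeOperatorBar (M * q) ⟨ℓ, hℓ⟩ x₀ = a ℓ • x₀) :
    ∃ t : JZero M, t ≠ 0 ∧ (p : ℤ) • t = 0 ∧
      ∀ (ℓ : ℕ) (hℓ : ℓ.Prime), S ℓ → heckeOperatorBar M ⟨ℓ, hℓ⟩ t = a ℓ • t := by
  have hp : p.Prime := hpf.out
  have hM : M ∣ M * (r * r) := Dvd.intro (r * r) rfl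
  have hx0 : (p : ℤ) • x₀ = 0 := smul_eq_zero_of_mem_tors' hx₀
  have hx0' : (p : ℤ) • pullJ (lvl_dvd_sq M r q) x₀ = 0 := by
    rw [← map_zsmul, hx0, _root_.map_zero]
  haveI : HasPrincipalDivisors (IsLocalRing.ResidueField A) (FRes A M) := modHpdK hqM hA
  haveI : HasPrincipalDivisors (IsLocalRing.ResidueField A) (FRes A (M * (r * r))) :=
    modHpdK hqMs hA
  have C' : NodalCtx (modNod hqMs hA) (modG (M * (r * r)) q) (modGk hqMs hA) (modGk hqMs hA) :=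
    Gen.modCtxG hqMs hA hgood
  have hord₁' : ∀ Q : Place (IsLocalRing.ResidueField A) (FRes A (M * (r * r))),
      Om.ordHom Q (tPsi hqMs hA p (pullJ (lvl_dvd_sq M r q) x₀)).1 = 0 := by
    intro Q
    by_cases hQ : ∃ c, Q = (modNod hqMs hA).x₁ c
    · obtain ⟨c, rfl⟩ := hQ
      have := congrArg (fun r => r.1 c) hres
      exact this
    · push Not at hQ
      exact ordHom_psi_eq_zero_of_ne₁ (Gen.modNRedC hqMs hA C') C' hx0' hQ
  have hord₂' : ∀ Q : Place (IsLocalRing.ResidueField A) (FRes A (M * (r * r))),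
      Om.ordHom Q (tPsi hqMs hA p (pullJ (lvl_dvd_sq M r q) x₀)).2 = 0 := by
    intro Q
    by_cases hQ : ∃ c, Q = (modNod hqMs hA).x₂ c
    · obtain ⟨c, rfl⟩ := hQ
      have := congrArg (fun r => r.2 c) hres
      exact this
    · push Not at hQ
      exact ordHom_psi_eq_zero_of_ne₂ (Gen.modNRedC hqMs hA C') C' hx0' hQ
  have hc₁ : (tPsi hqMs hA p (pullJ (lvl_dvd_sq M r q) x₀)).1 =
      Om.map (inclK A hM) (tPsi hqM hA p x₀).1 :=
    kapCl_pullJ (lvl_dvd_sq M r q) (modG_spec (M * (r * r)) q) (modG_spec M q)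
      (gaussCompat_one A hqM hqMs hA hM) hx0
  have hc₂ : (tPsi hqMs hA p (pullJ (lvl_dvd_sq M r q) x₀)).2 =
      Om.map (inclK A hM) (tPsi hqM hA p x₀).2 :=
    kapCl_pullJ (lvl_dvd_sq M r q) (modG_spec (M * (r * r)) q) (modG_spec M q)
      (gaussCompat_two A hqM hqMs hA hM) hx0
  have hdeg : ∀ w : Place (IsLocalRing.ResidueField A) (FRes A (M * (r * r))), w.deg = 1 :=
    (modGk_spec hqMs hA).deg_eq_one
  have hdesc : ∀ ω : Om A (FRes A M) p,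
      (∀ w : Place (IsLocalRing.ResidueField A) (FRes A (M * (r * r))),
        Om.ordHom w (Om.map (inclK A hM) ω) = 0) →
      ∀ v : Place (IsLocalRing.ResidueField A) (FRes A M), Om.ordHom v ω = 0 := fun ω h v =>
    ordHom_eq_zero_of_map (inclK A hM) (Q4.alphaK_integral A M (r * r))
      (Q4.finiteAlong_alphaK A M (r * r))
      (Q4.normFormulaAlong_alphaK A M (r * r) hA hqMs hdeg) hp
      (not_dvd_finrankAlong_inclK_sq hr hqMs hA hp hpr hpr1) ω h v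
  have hord₁ : ∀ v : Place (IsLocalRing.ResidueField A) (FRes A M),
      Om.ordHom v (tPsi hqM hA p x₀).1 = 0 :=
    hdesc _ (fun w => by rw [← hc₁]; exact hord₁' w)
  have hord₂ : ∀ v : Place (IsLocalRing.ResidueField A) (FRes A M),
      Om.ordHom v (tPsi hqM hA p x₀).2 = 0 :=
    hdesc _ (fun w => by rw [← hc₂]; exact hord₂' w)
  have heigΩ : ∀ (ℓ : ℕ) (hℓ : ℓ.Prime), S ℓ →
      tTΩ A M p ⟨ℓ, hℓ⟩ (tPsi hqM hA p x₀) = a ℓ • tPsi hqM hA p x₀ := by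
    intro ℓ hℓ hSℓ
    rw [← tPsi_hecke hqM hA p ⟨ℓ, hℓ⟩ (hS ℓ hSℓ).2 x₀ hx₀, heig ℓ hℓ hSℓ,
      zsmul_of_add_on_tors (tPsi hqM hA p) (tPsi_add hqM hA p) _ x₀ hx₀]
  have heig₁ : ∀ (ℓ : ℕ) [NeZero ℓ], S ℓ →
      Q4.heckeOm A M ℓ p (tPsi hqM hA p x₀).1 = a ℓ • (tPsi hqM hA p x₀).1 := by
    intro ℓ _ hSℓ
    exact congrArg Prod.fst (heigΩ ℓ (hS ℓ hSℓ).1 hSℓ)
  have heig₂ : ∀ (ℓ : ℕ) [NeZero ℓ], S ℓ →
      Q4.heckeOm A M ℓ p (tPsi hqM hA p x₀).2 = a ℓ • (tPsi hqM hA p x₀).2 := by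
    intro ℓ _ hSℓ
    exact congrArg Prod.snd (heigΩ ℓ (hS ℓ hSℓ).1 hSℓ)
  have hne : (tPsi hqM hA p x₀).1 ≠ 0 ∨ (tPsi hqM hA p x₀).2 ≠ 0 := by
    by_contra hcon
    rw [not_or, not_not, not_not] at hcon
    apply hΨ
    refine Prod.ext ?_ ?_
    · rw [hc₁, hcon.1, _root_.map_zero]
      rfl
    · rw [hc₂, hcon.2, _root_.map_zero]
      rfl
  rcases hne with h1 | h2
  · exact Lift.exists_eigen_torsion_of_om hqM hA p hp.ne_zero hqp _ h1 hord₁ a S hS heig₁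
  · exact Lift.exists_eigen_torsion_of_om hqM hA p hp.ne_zero hqp _ h2 hord₂ a S hS heig₂

/-- **the abelian alternative at the auxiliary level**: for the module `V ≅ W[p]` inside `J₀(M q)[p]`, some
`x₀ ∈ V` has `Ψ' (π^* x₀) ≠ 0` and `res' (Ψ' (π^* x₀)) = 0` at the level `(M r²) q`. -/
theorem exists_abelian_small (hne : NonEisWStmt) (W : WeierstrassCurve ℤ) (hΔ : W.Δ ≠ 0) (p : ℕ)
    [hpf : Fact p.Prime] (hp2 : p ≠ 2) (hirr : W.ModRepIsIrreducible p)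
    (hr : r.Prime) (hqMs : ¬ q ∣ M * (r * r)) (hgood : GoodPair (M * (r * r)) q)
    (hA : A.LiesOverPrime q) (hqp : q ≠ p) (hpr : ¬ p ∣ r) (hpr1 : ¬ p ∣ r + 1)
    (hmono : ∀ x ∈ tors (M * (r * r) * q) (p : ℤ), (∀ σ ∈ IA A, σ • x = x) →
      tRes hqMs hA p (tPsi hqMs hA p x) ∈ tEis hqMs hA p)
    (heis : ∀ (ℓ : Nat.Primes), ¬ (ℓ : ℕ) ∣ M * (r * r) * q → ∀ ρ ∈ tEis hqMs hA p,
      tTR hqMs hA p ℓ ρ = (((ℓ : ℕ) : ℤ) + 1) • ρ)
    (hItriv : ∀ τ ∈ IA A, ∀ x : WTors W p, τ • x = x)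
    (hAdisj : ¬ q ≡ 1 [MOD p] ∨ ∃ σ ∈ A.decompositionSubgroup ℚ, ∀ c : ℤ,
      ¬ ∀ x : WTors W p, σ • x = c • x)
    (V : AddSubgroup (JZero (M * q))) (e : WTors W p ≃+ V) (hVt : V ≤ tors (M * q) (p : ℤ))
    (he : ∀ (σ : GQ) (x : WTors W p),
      ((e (σ • x) : V) : JZero (M * q)) = σ • ((e x : V) : JZero (M * q))) :
    ∃ x₀ ∈ V, tPsi hqMs hA p (pullJ (lvl_dvd_sq M r q) x₀) ≠ 0 ∧
      tRes hqMs hA p (tPsi hqMs hA p (pullJ (lvl_dvd_sq M r q) x₀)) = 0 := by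
  classical
  have hp : p.Prime := hpf.out
  let ι : WTors W p →+ JZero (M * (r * r) * q) :=
    (pullJ (lvl_dvd_sq M r q)).comp (V.subtype.comp e.toAddMonoidHom)
  have hιx : ∀ y, ι y = pullJ (lvl_dvd_sq M r q) ((e y : V) : JZero (M * q)) := fun _ => rfl
  have hpe : ∀ y : WTors W p, (p : ℤ) • ((e y : V) : JZero (M * q)) = 0 := fun y =>
    (Submodule.mem_torsionBy_iff _ _).1 (hVt (e y).2)
  have hιinj : Function.Injective ι := by
    rw [injective_iff_map_eq_zero]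
    intro y hy
    rw [hιx] at hy
    have h0 : ((e y : V) : JZero (M * q)) = 0 :=
      pullJ_eq_zero_imp (lvl_dvd_sq M r q) hp (not_dvd_finrankAlong_inclL_sq hr hp hpr hpr1)
        (hpe y) hy
    have h1 : e y = 0 := Subtype.ext h0
    exact (AddEquiv.map_eq_zero_iff e).1 h1
  have hιgal : ∀ (σ : GQ) (y : WTors W p), ι (σ • y) = σ • ι y := by
    intro σ y
    rw [hιx, hιx, he, pullJ_smul]
  have hιt : ∀ y, ι y ∈ tors (M * (r * r) * q) (p : ℤ) := by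
    intro y
    show ι y ∈ Submodule.torsionBy ℤ (JZero (M * (r * r) * q)) (p : ℤ)
    rw [Submodule.mem_torsionBy_iff, hιx, ← map_zsmul, hpe y, _root_.map_zero]
  let G : TameCore (M * (r * r) * q) q p A :=
    tameCoreOfCtxE hqMs hA p (Gen.modCtxG hqMs hA hgood) hqp.symm hmono heis
  have hS : ∀ ℓ, IsTestPrime W (M * (r * r) * q) p ℓ →
      ℓ.Prime ∧ ¬ ℓ ∣ M * (r * r) * q ∧ ℓ ≠ p :=
    fun ℓ hℓ => ⟨hℓ.1, hℓ.2.2.1, hℓ.2.2.2⟩
  have hnonE := hne p hp hp2 W hΔ hirr (M * (r * r) * q) (Nat.pos_of_ne_zero (NeZero.ne _))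
  obtain ⟨x', hx'V, hΨ, hres⟩ := exists_abelian_of_coreW W hΔ hirr G hq.out hqp hA hItriv hAdisj
    ι.range (AddMonoidHom.ofInjective hιinj)
    (by rintro _ ⟨y, rfl⟩; exact hιt y)
    (fun σ y => hιgal σ y) W.apOfModel (IsTestPrime W (M * (r * r) * q) p) hS
    (by
      rintro ℓ hℓ htest _ ⟨y, rfl⟩
      exact hecke_eq_of_galois_equivariantW W hΔ p ι hιgal hιt hℓ htest y)
    hnonE
  obtain ⟨y, rfl⟩ := hx'V
  exact ⟨((e y : V) : JZero (M * q)), (e y).2, hΨ, hres⟩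

/-- **Mazur's principle at a small prime, level `M q`**, over the tame core at the auxiliary level
`(M r²) q`. -/
theorem resMod_small_aux (hQ1 : Q1WStmt) (hne : NonEisWStmt) {p : ℕ} (hp : p.Prime) (hp2 : p ≠ 2)
    (W : WeierstrassCurve ℤ) (hΔ : W.Δ ≠ 0) (hirr : W.ModRepIsIrreducible p)
    (hr : r.Prime) (hqr : q ≠ r) (hqM : ¬ q ∣ M) (hgood : GoodPair (M * (r * r)) q)
    (hqp : q ≠ p) (hpr : ¬ p ∣ r) (hpr1 : ¬ p ∣ r + 1)
    (hmono : ∀ (A : ValuationSubring Qb) (hA : A.LiesOverPrime q),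
      ∀ x ∈ tors (M * (r * r) * q) (p : ℤ), (∀ σ ∈ IA A, σ • x = x) →
      tRes (not_dvd_mul_sq hr hqr hqM) hA p (tPsi (not_dvd_mul_sq hr hqr hqM) hA p x) ∈
        tEis (not_dvd_mul_sq hr hqr hqM) hA p)
    (heis : ∀ (A : ValuationSubring Qb) (hA : A.LiesOverPrime q) (ℓ : Nat.Primes),
      ¬ (ℓ : ℕ) ∣ M * (r * r) * q → ∀ ρ ∈ tEis (not_dvd_mul_sq hr hqr hqM) hA p,
      tTR (not_dvd_mul_sq hr hqr hqM) hA p ℓ ρ = (((ℓ : ℕ) : ℤ) + 1) • ρ)
    (hunr : ModPUnramifiedAt W p q)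
    (hdisj : ¬ q ≡ 1 [MOD p] ∨ ¬ DecompScalarAtW W p q)
    (hres : W.IsResiduallyModularOfLevel p (M * q)) : W.IsResiduallyModularOfLevel p M := by
  classical
  haveI : Fact p.Prime := ⟨hp⟩
  have hq' : q.Prime := hq.out
  have hqMs : ¬ q ∣ M * (r * r) := not_dvd_mul_sq hr hqr hqM
  obtain ⟨f, 𝔪, hf, h𝔪, hp𝔪, hcong⟩ := hres
  have hcong' : CongruentTo f 𝔪 W.apOfModel (IsTestPrime W (M * q) p) :=
    fun ℓ hℓ => hcong ℓ hℓ.1 hℓ.2.1 hℓ.2.2.1 hℓ.2.2.2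
  obtain ⟨V, e, hVt, he, hVeig⟩ := hQ1 p hp hp2 W hΔ hirr (M * q) f 𝔪 hf h𝔪 hp𝔪 hcong'
  obtain ⟨A, hA, hAdisj⟩ : ∃ A : ValuationSubring Qb, A.LiesOverPrime q ∧
      (¬ q ≡ 1 [MOD p] ∨ ∃ σ ∈ A.decompositionSubgroup ℚ, ∀ c : ℤ,
        ¬ ∀ x : WTors W p, σ • x = c • x) := by
    rcases hdisj with h | h
    · obtain ⟨A, hA⟩ := Fermat.Agent.S13lib.exists_liesOverPrime hq'
      exact ⟨A, hA, Or.inl h⟩
    · unfold DecompScalarAtW at h
      push Not at h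
      obtain ⟨A, hA, σ, hσ, hns⟩ := h
      exact ⟨A, hA, Or.inr ⟨σ, hσ, fun c hc => by
        obtain ⟨x, hx⟩ := hns c
        exact hx (hc x)⟩⟩
  have hItriv : ∀ τ ∈ IA A, ∀ x : WTors W p, τ • x = x := fun τ hτ x => hunr A hA τ hτ x
  obtain ⟨x₀, hx₀V, hΨ, hres0⟩ := exists_abelian_small hne W hΔ p hp2 hirr hr hqMs hgood hA hqp hpr
    hpr1 (hmono A hA) (heis A hA) hItriv hAdisj V e hVt he
  -- the test primes of the auxiliary level
  have hSsub : ∀ ℓ, IsTestPrime W (M * (r * r) * q) p ℓ → IsTestPrime W (M * q) p ℓ :=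
    fun ℓ h => ⟨h.1, h.2.1, fun hd => h.2.2.1 (hd.trans (lvl_dvd_sq M r q)), h.2.2.2⟩
  have hS : ∀ ℓ, IsTestPrime W (M * (r * r) * q) p ℓ → ℓ.Prime ∧ ¬ ℓ ∣ M * q :=
    fun ℓ h => ⟨h.1, (hSsub ℓ h).2.2.1⟩
  have hqp' : ¬ q ∣ p := fun h => hqp ((Nat.prime_dvd_prime_iff_eq hq' hp).1 h)
  obtain ⟨t, ht0, hpt, hte⟩ := exists_eigen_torsion_small hr hqM hqMs hgood hA p hqp' hpr hpr1 x₀
    (hVt hx₀V) hΨ hres0 W.apOfModel (IsTestPrime W (M * (r * r) * q) p) hS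
    (fun ℓ hℓ hSℓ => hVeig ℓ hℓ (hSsub ℓ hSℓ) x₀ hx₀V)
  have hSM : ∀ ℓ, IsTestPrime W (M * (r * r) * q) p ℓ → ℓ.Prime ∧ ¬ ℓ ∣ M :=
    fun ℓ h => ⟨h.1, fun hd => (hS ℓ h).2 (hd.trans (Dvd.intro q rfl))⟩
  obtain ⟨g, 𝔪', hg, h𝔪', hp𝔪', hcongg⟩ := torsEigenStmt M p hp t ht0 hpt W.apOfModel
    (IsTestPrime W (M * (r * r) * q) p) hSM hte
  haveI := h𝔪'
  refine ⟨g, 𝔪', hg, h𝔪', hp𝔪', ?_⟩
  intro ℓ hℓ hgoodℓ hℓM hℓp
  set S₀ : Finset ℕ :=
    insert p ((M * (r * r) * q).primeFactors ∪ W.Δ.natAbs.primeFactors) with hS₀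
  refine Fermat.Agent.S59lib.AuxPrime.exists_congr_at_good W hΔ p g hg 𝔪' hp𝔪' S₀ ?_ hℓ hℓp hℓM
    hgoodℓ
  intro r' hr' hrS
  have hrp : r' ≠ p := fun h => hrS (h ▸ Finset.mem_insert_self _ _)
  have hrN : ¬ r' ∣ M * (r * r) * q := fun h => hrS (Finset.mem_insert_of_mem
    (Finset.mem_union_left _ (Nat.mem_primeFactors.2 ⟨hr', h, NeZero.ne _⟩)))
  have hrgood : W.IsGoodPrimeFor r' := by
    intro hd
    apply hrS
    refine Finset.mem_insert_of_mem (Finset.mem_union_right _ ?_)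
    rw [Nat.mem_primeFactors]
    exact ⟨hr', Int.natCast_dvd.mp hd, Int.natAbs_ne_zero.mpr hΔ⟩
  exact hcongg r' ⟨hr', hrgood, hrN, hrp⟩

end Aux

/-! ### Mazur's principle at `q = 2, 3` -/

/-- **Mazur's principle for `W` at `q = 3`, level `M · 3`**, `p ≥ 5`. -/
theorem resMod_three {p : ℕ} (hp : p.Prime) (hp5 : 5 ≤ p) (W : WeierstrassCurve ℤ) (hΔ : W.Δ ≠ 0)
    (hirr : W.ModRepIsIrreducible p) {M : ℕ} [NeZero M] (h3M : ¬ 3 ∣ M)
    (hunr : ModPUnramifiedAt W p 3) (hdisj : ¬ 3 ≡ 1 [MOD p] ∨ ¬ DecompScalarAtW W p 3)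
    (hres : W.IsResiduallyModularOfLevel p (M * 3)) : W.IsResiduallyModularOfLevel p M := by
  haveI : Fact p.Prime := ⟨hp⟩
  haveI : Fact (Nat.Prime 3) := ⟨Nat.prime_three⟩
  have h3Ms : ¬ 3 ∣ M * (2 * 2) := not_dvd_mul_sq Nat.prime_two (by norm_num) h3M
  have h4 : 4 ∣ M * (2 * 2) := Dvd.intro_left M rfl
  have hp2 : ¬ p ∣ 2 := fun h => by
    have := (Nat.prime_dvd_prime_iff_eq hp Nat.prime_two).1 h
    omega
  have hp3 : ¬ p ∣ 2 + 1 := fun h => by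
    have := (Nat.prime_dvd_prime_iff_eq hp Nat.prime_three).1 h
    omega
  exact resMod_small_aux (r := 2) (q := 3) q1WStmt nonEisWStmt hp (by omega) W hΔ hirr
    Nat.prime_two (by norm_num) h3M (Or.inr (Or.inr ⟨rfl, h4⟩)) (by omega) hp2 hp3
    (fun A hA => tMono_three h3Ms hA p rfl h4 hp5)
    (fun A hA ℓ hℓN ρ hρ => tEis_hecke h3Ms hA p (by norm_num) ℓ hℓN ρ hρ)
    hunr hdisj hres

/-- **Mazur's principle for `W` at `q = 2`, level `M · 2`**, `p ≥ 5`. -/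
theorem resMod_two {p : ℕ} (hp : p.Prime) (hp5 : 5 ≤ p) (W : WeierstrassCurve ℤ) (hΔ : W.Δ ≠ 0)
    (hirr : W.ModRepIsIrreducible p) {M : ℕ} [NeZero M] (h2M : ¬ 2 ∣ M)
    (hunr : ModPUnramifiedAt W p 2) (hdisj : ¬ 2 ≡ 1 [MOD p] ∨ ¬ DecompScalarAtW W p 2)
    (hres : W.IsResiduallyModularOfLevel p (M * 2)) : W.IsResiduallyModularOfLevel p M := by
  haveI : Fact p.Prime := ⟨hp⟩
  haveI : Fact (Nat.Prime 2) := ⟨Nat.prime_two⟩
  have h2Ms : ¬ 2 ∣ M * (3 * 3) := not_dvd_mul_sq Nat.prime_three (by norm_num) h2M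
  have h9 : 9 ∣ M * (3 * 3) := Dvd.intro_left M rfl
  have hp3 : ¬ p ∣ 3 := fun h => by
    have := (Nat.prime_dvd_prime_iff_eq hp Nat.prime_three).1 h
    omega
  have hp4 : ¬ p ∣ 3 + 1 := fun h => by
    have h' : p ∣ 2 ^ 2 := by norm_num; exact h
    have := (Nat.prime_dvd_prime_iff_eq hp Nat.prime_two).1 (hp.dvd_of_dvd_pow h')
    omega
  exact resMod_small_aux (r := 3) (q := 2) q1WStmt nonEisWStmt hp (by omega) W hΔ hirr
    Nat.prime_three (by norm_num) h2M (Or.inr (Or.inl ⟨rfl, h9⟩)) (by omega) hp3 hp4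
    (fun A hA => tMono_two h2Ms hA p rfl h9 hp5)
    (fun A hA ℓ hℓN ρ hρ => tEis_hecke_two h2Ms hA p rfl ℓ hℓN ρ hρ)
    hunr hdisj hres

/-- **MAZUR'S PRINCIPLE FOR `W` AT `q = 2, 3`**, `p ≥ 5`, every level. -/
theorem mazurW_small {p q : ℕ} (hp : p.Prime) (hp5 : 5 ≤ p) (hq : q = 2 ∨ q = 3) :
    MazurWAt p q (fun _ => True) := by
  intro W hΔ hirr N hN _ hqN hq2 hres hunr hdisj
  obtain ⟨M, rfl⟩ := hqN
  have hM : M ≠ 0 := fun h => hN.ne' (by rw [h, mul_zero])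
  have hqpos : 0 < q := by rcases hq with rfl | rfl <;> norm_num
  have hqM : ¬ q ∣ M := fun ⟨M', hM'⟩ => hq2 ⟨M', by rw [hM']; ring⟩
  haveI : NeZero M := ⟨hM⟩
  rw [Nat.mul_div_cancel_left M hqpos]
  rw [mul_comm] at hres
  rcases hq with rfl | rfl
  · exact resMod_two hp hp5 W hΔ hirr hqM hunr hdisj hres
  · exact resMod_three hp hp5 W hΔ hirr hqM hunr hdisj hres

end Fermat.Agent.S59lib.MazurW

end
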