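/-
S59lib / MazurW / Final  (helper8)  — Project I, block `LowerOneBlock`, part B0: **MAZUR'S PRINCIPLE FOR A
SEMISTABLE `W`, `p ∈ {3, 5}`, AT EVERY PRIME `q ≠ p` EXCEPT `(p, q) = (3, 2)`**, every level.

* `p = 5`, `q ≥ 7` : `mazurW_large` (Project H's tame package);
* `p = 5`, `q ∈ {2, 3}` : `mazurW_small` (auxiliary level `9 M · 2` resp. `4 M · 3`);
* `p = 3`, `q ≥ 5` : `mazurW_of_aux` + helper4's `BigImg.auxPrime_finset` (auxiliary prime `r₀ ≡ 11 (12)`,
  elliptic-free level, removed afterwards by helper1's `removeAux`).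
-/
import Fermat.Agent.S59lib.MazurW.Main
import Fermat.Agent.S59lib.MazurW.Small
import Fermat.Agent.S59lib.BigImg.AuxPrime

set_option autoImplicit false
set_option linter.unusedSectionVars false

noncomputable section

namespace Fermat.Agent.S59lib.MazurW

local notation "Qb" => AlgebraicClosure ℚ

/-- the auxiliary primes exist for a semistable `W` with `W[p]` irreducible, `p ∈ {3, 5}` (helper4). -/
theorem hasAuxPrime (p : ℕ) (hp35 : p = 3 ∨ p = 5) (W : WeierstrassCurve ℤ) (hΔ : W.Δ ≠ 0)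
    (hss : W.IsSemistableModel) (hirr : W.ModRepIsIrreducible p) : HasAuxPrime W p :=
  fun S => Fermat.Agent.S59lib.BigImg.auxPrime_finset p hp35 W hΔ hss hirr S

/-- **MAZUR'S PRINCIPLE FOR `W`**, `p ∈ {3, 5}`, `q ≠ p` prime, `(p, q) ≠ (3, 2)`: if `ρ̄ = W[p]` is
irreducible, residually modular of a level `N` with `q ∥ N`, unramified at `q`, and `q ≢ 1 (p)` or some
decomposition group over `q` acts through a non-scalar, then `ρ̄` is residually modular of level `N / q`. -/
theorem mazurW (p : ℕ) (hp35 : p = 3 ∨ p = 5) {q : ℕ} (hq : q.Prime) (hqp : q ≠ p)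
    (h32 : ¬ (p = 3 ∧ q = 2)) (W : WeierstrassCurve ℤ) (hΔ : W.Δ ≠ 0)
    (hss : W.IsSemistableModel) (hirr : W.ModRepIsIrreducible p) (N : ℕ) (hN : 0 < N)
    (hqN : q ∣ N) (hq2 : ¬ q ^ 2 ∣ N) (hres : W.IsResiduallyModularOfLevel p N)
    (hunr : ModPUnramifiedAt W p q) (hdisj : ¬ q ≡ 1 [MOD p] ∨ ¬ DecompScalarAtW W p q) :
    W.IsResiduallyModularOfLevel p (N / q) := by
  have hq2le := hq.two_le
  rcases hp35 with rfl | rfl
  · -- `p = 3`: `q ≥ 5`
    have h5 : 5 ≤ q := by
      have h2 : q ≠ 2 := fun h => h32 ⟨rfl, h⟩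
      have h4 : q ≠ 4 := by
        rintro rfl
        exact absurd hq (by norm_num)
      omega
    exact mazurW_of_aux Nat.prime_three (by norm_num) hq h5 hqp W hΔ hirr
      (hasAuxPrime 3 (Or.inl rfl) W hΔ hss hirr) N hN hqN hq2 hres hunr hdisj
  · -- `p = 5`
    have hp : Nat.Prime 5 := by norm_num
    by_cases hsmall : q = 2 ∨ q = 3
    · exact mazurW_small hp le_rfl hsmall W hΔ hirr N hN trivial hqN hq2 hres hunr hdisj
    · have h5 : 5 ≤ q := by
        have h4 : q ≠ 4 := by
          rintro rfl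
          exact absurd hq (by norm_num)
        push Not at hsmall
        omega
      exact mazurW_large hp le_rfl hq h5 hqp W hΔ hirr N hN trivial hqN hq2 hres hunr hdisj

end Fermat.Agent.S59lib.MazurW

end
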